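/-
Cluster L (S41, level raising), piece L1.  Owner: helper83.

Abstract "double coset operators" on `Hom(Γ, A)`.

A `WreathHom Γ Γ' I` is a homomorphism `Γ → Γ' ≀ Sym(I)` given by its components
(`perm`, `elt`).  It induces `op : Hom(Γ', A) → Hom(Γ, A)`, `(op c)(γ) = ∑ i, c (elt γ i)`.
It is *realized* by a family `rep : I → G` in an ambient group `G ⊇ Γ, Γ'` when
`rep i * γ = elt γ i * rep (perm γ i)`.  Two realized wreath homs whose families agree up to
left multiplication by `Γ'` and a bijection of the index sets induce the same operator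
(`op_eq_of_realizes`); composition of operators corresponds to the product family (`op_comp`).
-/
import Mathlib

set_option autoImplicit false

noncomputable section

namespace Fermat.Agent.LDeg

variable {G Γ Γ' Γ'' : Type*} [Group G] [Group Γ] [Group Γ'] [Group Γ'']

/-- A homomorphism `Γ → Γ' ≀ Sym(I)`, by components. -/
structure WreathHom (Γ Γ' : Type*) [Group Γ] [Group Γ'] (I : Type*) where
  /-- the permutation part (a right action) -/
  perm : Γ → I → I
  /-- the `Γ'`-valued part -/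
  elt : Γ → I → Γ'
  perm_one : ∀ i, perm 1 i = i
  perm_mul : ∀ γ δ i, perm (γ * δ) i = perm δ (perm γ i)
  elt_mul : ∀ γ δ i, elt (γ * δ) i = elt γ i * elt δ (perm γ i)

namespace WreathHom

variable {I J : Type*} (F : WreathHom Γ Γ' I)

theorem elt_one (i : I) : F.elt 1 i = 1 := by
  have h := F.elt_mul 1 1 i
  rw [mul_one, F.perm_one] at h
  exact (mul_eq_left.mp h.symm)

theorem perm_inv_perm (γ : Γ) (i : I) : F.perm γ⁻¹ (F.perm γ i) = i := by
  rw [← F.perm_mul, mul_inv_cancel, F.perm_one]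

theorem perm_perm_inv (γ : Γ) (i : I) : F.perm γ (F.perm γ⁻¹ i) = i := by
  rw [← F.perm_mul, inv_mul_cancel, F.perm_one]

/-- The permutation of `I` attached to `γ`. -/
def permEquiv (γ : Γ) : I ≃ I where
  toFun := F.perm γ
  invFun := F.perm γ⁻¹
  left_inv := F.perm_inv_perm γ
  right_inv := F.perm_perm_inv γ

@[simp] theorem permEquiv_apply (γ : Γ) (i : I) : F.permEquiv γ i = F.perm γ i := rfl

theorem perm_pow (γ : Γ) (n : ℕ) (i : I) : F.perm (γ ^ n) i = (F.perm γ)^[n] i := by
  induction n generalizing i with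
  | zero => simp [F.perm_one]
  | succ n ih => rw [pow_succ', F.perm_mul, ih, Function.iterate_succ_apply]

section Op

variable [Fintype I] {A : Type*} [AddCommGroup A]

/-- The value `(op c)(γ) = ∑ i, c (elt γ i)`. -/
def opFun (c : Additive Γ' →+ A) (γ : Γ) : A :=
  ∑ i : I, c (Additive.ofMul (F.elt γ i))

theorem opFun_mul (c : Additive Γ' →+ A) (γ δ : Γ) :
    F.opFun c (γ * δ) = F.opFun c γ + F.opFun c δ := by
  unfold opFun
  have hperm : ∑ i : I, c (Additive.ofMul (F.elt δ (F.perm γ i))) =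
      ∑ i : I, c (Additive.ofMul (F.elt δ i)) :=
    Equiv.sum_comp (F.permEquiv γ) (fun i => c (Additive.ofMul (F.elt δ i)))
  rw [← hperm, ← Finset.sum_add_distrib]
  refine Finset.sum_congr rfl fun i _ => ?_
  rw [F.elt_mul, ofMul_mul, map_add]

theorem opFun_one (c : Additive Γ' →+ A) : F.opFun c 1 = 0 := by
  have h := F.opFun_mul c 1 1
  rw [mul_one] at h
  simpa using h

variable (A) in
/-- The operator `Hom(Γ', A) → Hom(Γ, A)` attached to a wreath hom. -/
def op : (Additive Γ' →+ A) →+ (Additive Γ →+ A) where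
  toFun c :=
    { toFun := fun γ => F.opFun c (Additive.toMul γ)
      map_zero' := F.opFun_one c
      map_add' := fun γ δ => F.opFun_mul c (Additive.toMul γ) (Additive.toMul δ) }
  map_zero' := by
    ext γ
    simp [opFun]
  map_add' c d := by
    ext γ
    simp [opFun, Finset.sum_add_distrib]

@[simp] theorem op_apply (c : Additive Γ' →+ A) (γ : Γ) :
    F.op A c (Additive.ofMul γ) = ∑ i : I, c (Additive.ofMul (F.elt γ i)) := rfl

/-- If `c` kills `elt (γ ^ k) i` whenever `i` is fixed by `γ ^ k` (`k > 0`), then `op c` kills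
`γ` (coefficients without torsion). -/
theorem op_apply_eq_zero [IsAddTorsionFree A] (c : Additive Γ' →+ A) (γ : Γ)
    (h : ∀ (k : ℕ) (i : I), 0 < k → F.perm (γ ^ k) i = i →
      c (Additive.ofMul (F.elt (γ ^ k) i)) = 0) :
    F.op A c (Additive.ofMul γ) = 0 := by
  classical
  set k : ℕ := orderOf (F.permEquiv γ) with hk
  have hkpos : 0 < k := orderOf_pos _
  have hfix : ∀ i, F.perm (γ ^ k) i = i := by
    intro i
    rw [F.perm_pow]
    have h1 : (F.permEquiv γ) ^ k = 1 := pow_orderOf_eq_one _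
    have h2 : ((F.permEquiv γ) ^ k) i = (F.perm γ)^[k] i := by
      rw [Equiv.Perm.coe_pow]
      rfl
    rw [← h2, h1]
    rfl
  have hpow : F.op A c (Additive.ofMul (γ ^ k)) = 0 := by
    rw [op_apply]
    exact Finset.sum_eq_zero fun i _ => h k i hkpos (hfix i)
  rw [ofMul_pow, map_nsmul] at hpow
  exact (smul_eq_zero_iff_right hkpos.ne').mp hpow

end Op

/-- Composition: first `F : Γ → Γ' ≀ Sym I`, then `F' : Γ' → Γ'' ≀ Sym J`. -/
def comp (F : WreathHom Γ Γ' I) (F' : WreathHom Γ' Γ'' J) : WreathHom Γ Γ'' (J × I) where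
  perm γ ji := (F'.perm (F.elt γ ji.2) ji.1, F.perm γ ji.2)
  elt γ ji := F'.elt (F.elt γ ji.2) ji.1
  perm_one := by
    rintro ⟨j, i⟩
    simp [F.perm_one, F.elt_one, F'.perm_one]
  perm_mul := by
    rintro γ δ ⟨j, i⟩
    simp [F.perm_mul, F.elt_mul, F'.perm_mul]
  elt_mul := by
    rintro γ δ ⟨j, i⟩
    simp [F.elt_mul, F'.elt_mul]

theorem op_comp [Fintype I] [Fintype J] (F : WreathHom Γ Γ' I) (F' : WreathHom Γ' Γ'' J)
    (A : Type*) [AddCommGroup A] :
    (F.comp F').op A = (F.op A).comp (F'.op A) := by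
  refine AddMonoidHom.ext fun c => AddMonoidHom.ext fun γ => ?_
  obtain ⟨γ, rfl⟩ := Additive.ofMul.surjective γ
  rw [AddMonoidHom.comp_apply, op_apply, op_apply, Fintype.sum_prod_type_right]
  refine Finset.sum_congr rfl fun i _ => ?_
  rw [op_apply]
  rfl

/-- `F` is realized by the family `rep` in the ambient group `G`. -/
def Realizes (F : WreathHom Γ Γ' I) (ι : Γ →* G) (ι' : Γ' →* G) (rep : I → G) : Prop :=
  ∀ γ i, rep i * ι γ = ι' (F.elt γ i) * rep (F.perm γ i)

theorem Realizes.comp {F : WreathHom Γ Γ' I} {F' : WreathHom Γ' Γ'' J} {ι : Γ →* G}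
    {ι' : Γ' →* G} {ι'' : Γ'' →* G} {rep : I → G} {rep' : J → G}
    (hF : F.Realizes ι ι' rep) (hF' : F'.Realizes ι' ι'' rep') :
    (F.comp F').Realizes ι ι'' (fun ji => rep' ji.1 * rep ji.2) := by
  rintro γ ⟨j, i⟩
  show rep' j * rep i * ι γ = ι'' (F'.elt (F.elt γ i) j) *
    (rep' (F'.perm (F.elt γ i) j) * rep (F.perm γ i))
  rw [mul_assoc, hF γ i, ← mul_assoc, hF' (F.elt γ i) j, mul_assoc]

end WreathHom

/-- The cosets `ι'(Γ') * rep i` are pairwise distinct. -/
def CosetsDistinct {I : Type*} (ι' : Γ' →* G) (rep : I → G) : Prop :=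
  ∀ i j (n : Γ'), rep i = ι' n * rep j → i = j

namespace WreathHom

variable {I I' : Type*}

theorem Realizes.unique {F : WreathHom Γ Γ' I} {ι : Γ →* G} {ι' : Γ' →* G} {rep : I → G}
    (hF : F.Realizes ι ι' rep) (hι' : Function.Injective ι') (hd : CosetsDistinct ι' rep)
    {γ : Γ} {i j : I} {n : Γ'} (h : rep i * ι γ = ι' n * rep j) :
    F.perm γ i = j ∧ F.elt γ i = n := by
  have h1 := hF γ i
  rw [h] at h1
  have h2 : rep j = ι' (n⁻¹ * F.elt γ i) * rep (F.perm γ i) := by
    rw [map_mul, map_inv, mul_assoc, ← h1, inv_mul_cancel_left]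
  have hj : j = F.perm γ i := hd _ _ _ h2
  subst hj
  refine ⟨rfl, ?_⟩
  have h3 := mul_right_cancel h1
  exact (hι' h3).symm

/-- Two realized wreath homs whose families agree up to `Γ'` on the left and a bijection of the
index sets induce the same operator. -/
theorem op_eq_of_realizes [Fintype I] [Fintype I'] {F : WreathHom Γ Γ' I}
    {F' : WreathHom Γ Γ' I'} {ι : Γ →* G} {ι' : Γ' →* G} {rep : I → G} {rep' : I' → G}
    (hF : F.Realizes ι ι' rep) (hF' : F'.Realizes ι ι' rep') (hι' : Function.Injective ι')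
    (hd : CosetsDistinct ι' rep) (π : I' ≃ I) (n : I' → Γ')
    (h : ∀ i, rep' i = ι' (n i) * rep (π i)) (A : Type*) [AddCommGroup A] :
    F'.op A = F.op A := by
  refine AddMonoidHom.ext fun c => AddMonoidHom.ext fun γ => ?_
  obtain ⟨γ, rfl⟩ := Additive.ofMul.surjective γ
  rw [op_apply, op_apply]
  have key : ∀ i : I', F.perm γ (π i) = π (F'.perm γ i) ∧
      F.elt γ (π i) = (n i)⁻¹ * F'.elt γ i * n (F'.perm γ i) := by
    intro i
    apply hF.unique hι' hd
    have h1 := hF' γ i
    rw [h i, h (F'.perm γ i)] at h1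
    rw [map_mul, map_mul, map_inv, mul_assoc, mul_assoc, ← h1, mul_assoc, inv_mul_cancel_left]
  have hterm : ∀ i : I', c (Additive.ofMul (F'.elt γ i)) =
      c (Additive.ofMul (F.elt γ (π i))) +
        (c (Additive.ofMul (n i)) - c (Additive.ofMul (n (F'.perm γ i)))) := by
    intro i
    rw [(key i).2, ofMul_mul, ofMul_mul, ofMul_inv, map_add, map_add, map_neg]
    abel
  have hperm : ∑ i : I', c (Additive.ofMul (n (F'.perm γ i))) =
      ∑ i : I', c (Additive.ofMul (n i)) :=
    Equiv.sum_comp (F'.permEquiv γ) (fun i => c (Additive.ofMul (n i)))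
  rw [Finset.sum_congr rfl fun i _ => hterm i, Finset.sum_add_distrib, Finset.sum_sub_distrib,
    hperm, sub_self, add_zero]
  exact Equiv.sum_comp π (fun i => c (Additive.ofMul (F.elt γ i)))

section OfUnique

variable (ι : Γ →* G) (ι' : Γ' →* G) (rep : I → G)
  (hex : ∀ (γ : Γ) (i : I), ∃ (j : I) (n : Γ'), rep i * ι γ = ι' n * rep j)

/-- The index `j` with `rep i * γ ∈ Γ' * rep j`. -/
def ofUniquePerm (γ : Γ) (i : I) : I := (hex γ i).choose

/-- The element `n ∈ Γ'` with `rep i * γ = n * rep j`. -/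
def ofUniqueElt (γ : Γ) (i : I) : Γ' := (hex γ i).choose_spec.choose

theorem ofUnique_spec (γ : Γ) (i : I) :
    rep i * ι γ = ι' (ofUniqueElt ι ι' rep hex γ i) * rep (ofUniquePerm ι ι' rep hex γ i) :=
  (hex γ i).choose_spec.choose_spec

variable {ι ι' rep}

theorem ofUnique_unique (hι' : Function.Injective ι') (hd : CosetsDistinct ι' rep)
    {γ : Γ} {i j : I} {n : Γ'} (h : rep i * ι γ = ι' n * rep j) :
    ofUniquePerm ι ι' rep hex γ i = j ∧ ofUniqueElt ι ι' rep hex γ i = n := by
  have h1 := ofUnique_spec ι ι' rep hex γ i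
  rw [h] at h1
  have h2 : rep j = ι' (n⁻¹ * ofUniqueElt ι ι' rep hex γ i) *
      rep (ofUniquePerm ι ι' rep hex γ i) := by
    rw [map_mul, map_inv, mul_assoc, ← h1, inv_mul_cancel_left]
  have hj : j = ofUniquePerm ι ι' rep hex γ i := hd _ _ _ h2
  refine ⟨hj.symm, ?_⟩
  rw [← hj] at h1
  have h3 := mul_right_cancel h1
  exact (hι' h3).symm

/-- The wreath hom attached to a family of representatives of pairwise distinct cosets that is
stable under right multiplication by `Γ`. -/
def ofUnique (hι' : Function.Injective ι') (hd : CosetsDistinct ι' rep) : WreathHom Γ Γ' I where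
  perm := ofUniquePerm ι ι' rep hex
  elt := ofUniqueElt ι ι' rep hex
  perm_one i := (ofUnique_unique hex hι' hd (γ := 1) (i := i) (j := i) (n := 1)
    (by simp)).1
  perm_mul γ δ i := (ofUnique_unique hex hι' hd (γ := γ * δ) (i := i)
    (j := ofUniquePerm ι ι' rep hex δ (ofUniquePerm ι ι' rep hex γ i))
    (n := ofUniqueElt ι ι' rep hex γ i *
      ofUniqueElt ι ι' rep hex δ (ofUniquePerm ι ι' rep hex γ i))
    (by
      rw [map_mul, ← mul_assoc, ofUnique_spec ι ι' rep hex γ i, mul_assoc,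
        ofUnique_spec ι ι' rep hex δ, map_mul, mul_assoc])).1
  elt_mul γ δ i := (ofUnique_unique hex hι' hd (γ := γ * δ) (i := i)
    (j := ofUniquePerm ι ι' rep hex δ (ofUniquePerm ι ι' rep hex γ i))
    (n := ofUniqueElt ι ι' rep hex γ i *
      ofUniqueElt ι ι' rep hex δ (ofUniquePerm ι ι' rep hex γ i))
    (by
      rw [map_mul, ← mul_assoc, ofUnique_spec ι ι' rep hex γ i, mul_assoc,
        ofUnique_spec ι ι' rep hex δ, map_mul, mul_assoc])).2

theorem ofUnique_realizes (hι' : Function.Injective ι') (hd : CosetsDistinct ι' rep) :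
    (ofUnique hex hι' hd).Realizes ι ι' rep :=
  fun γ i => ofUnique_spec ι ι' rep hex γ i

end OfUnique

end WreathHom

end Fermat.Agent.LDeg
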