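/-
Cluster L (S41, level raising), WP DEG-1 (bridge).  Owner: helper88.

The corestriction `L.coresFun f A` (Mathlib's `MonoidHom.transfer` along `f.range`) is the
operator `F.op A` of any wreath hom `F : G → H ≀ Sym(I)` realized by a family of representatives
`rep : I → G` of pairwise distinct right cosets `f(H) * rep i`.
-/
import Fermat.Agent.L.Defs
import Fermat.Agent.L.Degen.Wreath

set_option autoImplicit false

noncomputable section

namespace Fermat.Agent.LDeg

open Subgroup MonoidHom

section Transfer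

variable {G : Type*} [Group G] {K : Subgroup G} {M : Type*} [CommGroup M]

theorem section_mem (tf : G ⧸ K → G) (htf : ∀ q, (tf q : G ⧸ K) = q) (g : G) (q : G ⧸ K) :
    (tf q)⁻¹ * (g * tf (g⁻¹ • q)) ∈ K := by
  rw [← QuotientGroup.eq]
  have h1 : ((g * tf (g⁻¹ • q) : G) : G ⧸ K) = g • ((tf (g⁻¹ • q) : G) : G ⧸ K) := rfl
  rw [htf, h1, htf, smul_inv_smul]

/-- Mathlib's transfer, computed with an arbitrary section of `G → G ⧸ K`. -/
theorem transfer_eq_prod_section (ϕ : K →* M) [K.FiniteIndex] [Fintype (G ⧸ K)]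
    (tf : G ⧸ K → G) (htf : ∀ q, (tf q : G ⧸ K) = q) (g : G) :
    transfer ϕ g = ∏ q : G ⧸ K, ϕ ⟨(tf q)⁻¹ * (g * tf (g⁻¹ • q)), section_mem tf htf g q⟩ := by
  have hinst : ‹Fintype (G ⧸ K)› = K.fintypeQuotientOfFiniteIndex := Subsingleton.elim _ _
  subst hinst
  rw [transfer_def ϕ ⟨Set.range tf, isComplement_range_left htf⟩ g]
  unfold leftTransversals.diff
  refine Finset.prod_congr rfl fun q _ => ?_
  refine congrArg ϕ (Subtype.ext ?_)
  simp only [smul_apply_eq_smul_apply_inv_smul, IsComplement.leftQuotientEquiv_apply htf,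
    smul_eq_mul]

theorem transfer_mul_hom (ϕ ψ : K →* M) [K.FiniteIndex] (g : G) :
    transfer (ϕ * ψ) g = transfer ϕ g * transfer ψ g := by
  classical
  let _ : Fintype (G ⧸ K) := K.fintypeQuotientOfFiniteIndex
  rw [transfer_eq_prod_section (ϕ * ψ) Quotient.out Quotient.out_eq' g,
    transfer_eq_prod_section ϕ Quotient.out Quotient.out_eq' g,
    transfer_eq_prod_section ψ Quotient.out Quotient.out_eq' g, ← Finset.prod_mul_distrib]
  rfl

/-- Transfer of the restriction of a homomorphism defined on `G`. -/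
theorem transfer_restrict (χ : G →* M) [K.FiniteIndex] (g : G) :
    transfer (χ.comp K.subtype) g = χ g ^ K.index := by
  classical
  let _ : Fintype (G ⧸ K) := K.fintypeQuotientOfFiniteIndex
  rw [transfer_eq_prod_section (χ.comp K.subtype) Quotient.out Quotient.out_eq' g]
  have h1 : ∀ q : G ⧸ K, (χ.comp K.subtype)
      ⟨(Quotient.out q)⁻¹ * (g * Quotient.out (g⁻¹ • q)),
        section_mem Quotient.out Quotient.out_eq' g q⟩ =
      χ g * ((χ (Quotient.out q))⁻¹ * χ (Quotient.out (g⁻¹ • q))) := by
    intro q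
    show χ ((Quotient.out q)⁻¹ * (g * Quotient.out (g⁻¹ • q))) = _
    rw [map_mul, map_mul, map_inv]
    exact mul_left_comm _ _ _
  rw [Finset.prod_congr rfl fun q _ => h1 q, Finset.prod_mul_distrib, Finset.prod_mul_distrib,
    Finset.prod_const, Finset.prod_inv_distrib]
  have h2 : ∏ q : G ⧸ K, χ (Quotient.out (g⁻¹ • q)) = ∏ q : G ⧸ K, χ (Quotient.out q) :=
    Fintype.prod_equiv (MulAction.toPerm g⁻¹) _ _ fun _ => rfl
  rw [h2, inv_mul_cancel, mul_one, Finset.card_univ, Subgroup.index, Nat.card_eq_fintype_card]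

/-- If `ϕ` kills every element of `K` of the form `t⁻¹ g ^ n t`, `n > 0`, then the transfer of
`ϕ` kills `g`. -/
theorem transfer_eq_one_of_conj (ϕ : K →* M) [K.FiniteIndex] (g : G)
    (h : ∀ (n : ℕ) (t : G) (x : K), 0 < n → (x : G) = t⁻¹ * g ^ n * t → ϕ x = 1) :
    transfer ϕ g = 1 := by
  classical
  have : Finite (G ⧸ K) := Subgroup.finite_quotient_of_finiteIndex
  let _ : Fintype (Quotient (MulAction.orbitRel (zpowers g) (G ⧸ K))) := Fintype.ofFinite _
  rw [transfer_eq_prod_quotient_orbitRel_zpowers_quot]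
  refine Finset.prod_eq_one fun q _ => ?_
  rcases Nat.eq_zero_or_pos (Function.minimalPeriod (g • ·) q.out) with h0 | hpos
  · have : (⟨q.out.out⁻¹ * g ^ Function.minimalPeriod (g • ·) q.out * q.out.out,
        QuotientGroup.out_conj_pow_minimalPeriod_mem K g q.out⟩ : K) = 1 := by
      apply Subtype.ext
      show q.out.out⁻¹ * g ^ Function.minimalPeriod (g • ·) q.out * q.out.out = 1
      rw [h0, pow_zero, mul_one, inv_mul_cancel]
    rw [this, map_one]
  · exact h _ q.out.out _ hpos rfl

end Transfer

section Bridge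

variable {G H : Type*} [Group G] [Group H] {I : Type*}

/-- The left coset `(rep i)⁻¹ * f(H)` attached to the right coset `f(H) * rep i`. -/
def cosetMap (f : H →* G) (rep : I → G) (i : I) : G ⧸ f.range :=
  (((rep i)⁻¹ : G) : G ⧸ f.range)

theorem cosetMap_injective {f : H →* G} {rep : I → G} (hd : CosetsDistinct f rep) :
    Function.Injective (cosetMap f rep) := by
  intro i j h
  unfold cosetMap at h
  rw [QuotientGroup.eq, inv_inv] at h
  obtain ⟨n, hn⟩ := h
  refine hd i j n ?_
  rw [hn, inv_mul_cancel_right]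

theorem cosetMap_perm {f : H →* G} {rep : I → G} {F : WreathHom G H I}
    (hF : F.Realizes (MonoidHom.id G) f rep) (γ : G) (i : I) :
    γ⁻¹ • cosetMap f rep i = cosetMap f rep (F.perm γ i) := by
  unfold cosetMap
  have h1 : γ⁻¹ • (((rep i)⁻¹ : G) : G ⧸ f.range) = ((γ⁻¹ * (rep i)⁻¹ : G) : G ⧸ f.range) := rfl
  rw [h1, QuotientGroup.eq]
  refine ⟨F.elt γ i, ?_⟩
  have h2 := hF γ i
  rw [MonoidHom.id_apply] at h2
  rw [mul_inv_rev, inv_inv, inv_inv, h2, mul_inv_cancel_right]

theorem cosetMap_surjective {f : H →* G} {rep : I → G} {F : WreathHom G H I} [Nonempty I]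
    (hF : F.Realizes (MonoidHom.id G) f rep) : Function.Surjective (cosetMap f rep) := by
  intro q
  obtain ⟨g, rfl⟩ := QuotientGroup.mk_surjective q
  obtain ⟨i₀⟩ := ‹Nonempty I›
  refine ⟨F.perm ((rep i₀)⁻¹ * g⁻¹) i₀, ?_⟩
  rw [← cosetMap_perm hF]
  unfold cosetMap
  have h1 : ((rep i₀)⁻¹ * g⁻¹)⁻¹ • (((rep i₀)⁻¹ : G) : G ⧸ f.range) =
      ((((rep i₀)⁻¹ * g⁻¹)⁻¹ * (rep i₀)⁻¹ : G) : G ⧸ f.range) := rfl
  rw [h1, mul_inv_rev, inv_inv, inv_inv, mul_inv_cancel_right]

/-- The bijection between the index set of a realized wreath hom and `G ⧸ f(H)`. -/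
def cosetEquiv {f : H →* G} {rep : I → G} {F : WreathHom G H I} [Nonempty I]
    (hF : F.Realizes (MonoidHom.id G) f rep) (hd : CosetsDistinct f rep) : I ≃ G ⧸ f.range :=
  Equiv.ofBijective (cosetMap f rep) ⟨cosetMap_injective hd, cosetMap_surjective hF⟩

@[simp] theorem cosetEquiv_apply {f : H →* G} {rep : I → G} {F : WreathHom G H I} [Nonempty I]
    (hF : F.Realizes (MonoidHom.id G) f rep) (hd : CosetsDistinct f rep) (i : I) :
    cosetEquiv hF hd i = cosetMap f rep i := rfl

/-- The image of `f` has finite index as soon as some wreath hom with finite index set is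
realized by a family of representatives. -/
theorem finiteIndex_range_of_realizes {f : H →* G} {rep : I → G} {F : WreathHom G H I}
    [Finite I] [Nonempty I] (hF : F.Realizes (MonoidHom.id G) f rep) : f.range.FiniteIndex := by
  have : Finite (G ⧸ f.range) := Finite.of_surjective _ (cosetMap_surjective hF)
  exact Subgroup.finiteIndex_of_finite_quotient

theorem index_range_of_realizes {f : H →* G} {rep : I → G} {F : WreathHom G H I}
    [Fintype I] [Nonempty I] (hF : F.Realizes (MonoidHom.id G) f rep)
    (hd : CosetsDistinct f rep) : f.range.index = Fintype.card I := by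
  rw [Subgroup.index, ← Nat.card_eq_fintype_card]
  exact (Nat.card_congr (cosetEquiv hF hd)).symm

/-- **Bridge**: Mathlib's transfer along `f` is the operator of any realized wreath hom. -/
theorem coresFun_eq_op (f : H →* G) (hf : Function.Injective f) [Fintype I] [Nonempty I]
    (F : WreathHom G H I) (rep : I → G) (hF : F.Realizes (MonoidHom.id G) f rep)
    (hd : CosetsDistinct f rep) (A : Type*) [AddCommGroup A] (c : Additive H →+ A) :
    L.coresFun f A c = F.op A c := by
  have : f.range.FiniteIndex := finiteIndex_range_of_realizes hF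
  rw [L.coresFun_eq f A c hf]
  refine AddMonoidHom.ext fun γ => ?_
  obtain ⟨γ, rfl⟩ := Additive.ofMul.surjective γ
  set e : I ≃ G ⧸ f.range := cosetEquiv hF hd with he
  let _ : Fintype (G ⧸ f.range) := Fintype.ofEquiv I e
  have htf : ∀ q : G ⧸ f.range, (((rep (e.symm q))⁻¹ : G) : G ⧸ f.range) = q := by
    intro q
    have h1 : e (e.symm q) = q := e.apply_symm_apply q
    rw [he, cosetEquiv_apply] at h1
    exact h1
  have key := transfer_eq_prod_section
    ((AddMonoidHom.toMultiplicativeRight c).comp
      ((MonoidHom.ofInjective hf).symm : f.range →* H))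
    (fun q => (rep (e.symm q))⁻¹) htf γ
  rw [WreathHom.op_apply]
  show Multiplicative.toAdd (MonoidHom.transfer _ γ) = _
  rw [key, ← Equiv.prod_comp e, toAdd_prod]
  refine Finset.sum_congr rfl fun i _ => ?_
  have hperm : γ⁻¹ • e i = e (F.perm γ i) := cosetMap_perm hF γ i
  have hmem : ∀ x : f.range, (x : G) = f (F.elt γ i) →
      ((MonoidHom.ofInjective hf).symm : f.range →* H) x = F.elt γ i := by
    intro x hx
    show (MonoidHom.ofInjective hf).symm x = F.elt γ i
    rw [MulEquiv.symm_apply_eq]
    exact Subtype.ext hx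
  rw [MonoidHom.comp_apply, hmem]
  · rfl
  · show ((rep (e.symm (e i)))⁻¹)⁻¹ * (γ * (rep (e.symm (γ⁻¹ • e i)))⁻¹) = f (F.elt γ i)
    rw [hperm, e.symm_apply_apply, e.symm_apply_apply, inv_inv, ← mul_assoc]
    have h2 := hF γ i
    rw [MonoidHom.id_apply] at h2
    rw [h2, mul_inv_cancel_right]

end Bridge

section Cores

variable {G H : Type*} [Group G] [Group H] (f : H →* G) (A : Type*) [AddCommGroup A]

theorem coresFun_of_not (h : ¬ (Function.Injective f ∧ f.range.FiniteIndex))
    (c : Additive H →+ A) : L.coresFun f A c = 0 := by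
  unfold L.coresFun
  rw [dif_neg h]

/-- Value of the corestriction, in terms of Mathlib's transfer. -/
theorem coresFun_apply (hf : Function.Injective f) [f.range.FiniteIndex]
    (c : Additive H →+ A) (γ : G) :
    L.coresFun f A c (Additive.ofMul γ) =
      Multiplicative.toAdd (MonoidHom.transfer
        ((AddMonoidHom.toMultiplicativeRight c).comp
          ((MonoidHom.ofInjective hf).symm : f.range →* H)) γ) := by
  rw [L.coresFun_eq f A c hf]
  rfl

theorem coresFun_add (c c' : Additive H →+ A) :
    L.coresFun f A (c + c') = L.coresFun f A c + L.coresFun f A c' := by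
  by_cases h : Function.Injective f ∧ f.range.FiniteIndex
  · obtain ⟨hf, hfin⟩ := h
    refine AddMonoidHom.ext fun γ => ?_
    obtain ⟨γ, rfl⟩ := Additive.ofMul.surjective γ
    rw [AddMonoidHom.add_apply, coresFun_apply f A hf, coresFun_apply f A hf,
      coresFun_apply f A hf, ← toAdd_mul, ← transfer_mul_hom]
    rfl
  · rw [coresFun_of_not f A h, coresFun_of_not f A h, coresFun_of_not f A h, add_zero]

theorem coresFun_zero : L.coresFun f A 0 = 0 := by
  have h := coresFun_add f A 0 0
  rw [add_zero] at h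
  exact add_eq_left.mp h.symm

/-- The corestriction as an additive map `Hom(H, A) → Hom(G, A)`. -/
def coresHom : (Additive H →+ A) →+ (Additive G →+ A) where
  toFun := L.coresFun f A
  map_zero' := coresFun_zero f A
  map_add' := coresFun_add f A

@[simp] theorem coresHom_apply (c : Additive H →+ A) : coresHom f A c = L.coresFun f A c := rfl

variable {f A}

/-- If `c` kills every `x` with `f x = t⁻¹ γ ^ n t`, `n > 0`, then the corestriction of `c`
kills `γ`. -/
theorem coresFun_apply_eq_zero (c : Additive H →+ A) (γ : G)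
    (h : ∀ (n : ℕ) (t : G) (x : H), 0 < n → f x = t⁻¹ * γ ^ n * t →
      c (Additive.ofMul x) = 0) :
    L.coresFun f A c (Additive.ofMul γ) = 0 := by
  by_cases h' : Function.Injective f ∧ f.range.FiniteIndex
  · obtain ⟨hf, hfin⟩ := h'
    rw [coresFun_apply f A hf, transfer_eq_one_of_conj]
    · rfl
    · intro n t x hn hx
      have h1 : f ((MonoidHom.ofInjective hf).symm x) = t⁻¹ * γ ^ n * t := by
        rw [← hx, ← MonoidHom.ofInjective_apply hf, MulEquiv.apply_symm_apply]
      have h2 := h n t _ hn h1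
      show Multiplicative.ofAdd (c (Additive.ofMul ((MonoidHom.ofInjective hf).symm x))) = 1
      rw [h2]
      rfl
  · rw [coresFun_of_not f A h']
    rfl

/-- Corestriction after restriction is multiplication by the index. -/
theorem coresFun_comp (hf : Function.Injective f) [f.range.FiniteIndex]
    (c : Additive G →+ A) :
    L.coresFun f A (c.comp (MonoidHom.toAdditive f)) = f.range.index • c := by
  refine AddMonoidHom.ext fun γ => ?_
  obtain ⟨γ, rfl⟩ := Additive.ofMul.surjective γ
  rw [coresFun_apply f A hf]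
  have h1 : (AddMonoidHom.toMultiplicativeRight (c.comp (MonoidHom.toAdditive f))).comp
      ((MonoidHom.ofInjective hf).symm : f.range →* H) =
      (AddMonoidHom.toMultiplicativeRight c).comp f.range.subtype := by
    refine MonoidHom.ext fun x => ?_
    show Multiplicative.ofAdd (c (Additive.ofMul (f ((MonoidHom.ofInjective hf).symm x)))) =
      Multiplicative.ofAdd (c (Additive.ofMul (x : G)))
    rw [← MonoidHom.ofInjective_apply hf, MulEquiv.apply_symm_apply]
  rw [h1, transfer_restrict, toAdd_pow]
  rfl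

end Cores

end Fermat.Agent.LDeg
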