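/-
Cluster L (S41, level raising), piece L1.  Owner: helper83.

Integer `2 × 2` matrices of non-zero determinant inside `GL₂(ℝ)`; the Hecke representatives
`heckeRep ℓ x` as integer matrices; decomposition of integer matrices of prime determinant.
-/
import Mathlib
import Fermat.Agent.F3.EigenChar.Defs

set_option autoImplicit false

noncomputable section

namespace Fermat.Agent.LDeg

open CongruenceSubgroup Matrix.SpecialLinearGroup
open scoped MatrixGroups
open P2MW.S_ModularForm_heckeT_slash_eq_self_of_mem_Gamma0.ModularForm.HeckeSlashInvariance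

/-- An integer matrix of non-zero determinant, as an element of `GL₂(ℝ)`. -/
def intGL (M : Matrix (Fin 2) (Fin 2) ℤ) (h : M.det ≠ 0) : GL (Fin 2) ℝ :=
  Matrix.GeneralLinearGroup.mkOfDetNeZero ((Int.castRingHom ℝ).mapMatrix M) (by
    rw [← RingHom.map_det]
    simpa using h)

@[simp] theorem coe_intGL (M : Matrix (Fin 2) (Fin 2) ℤ) (h : M.det ≠ 0) :
    ((intGL M h : GL (Fin 2) ℝ) : Matrix (Fin 2) (Fin 2) ℝ) = (Int.castRingHom ℝ).mapMatrix M :=
  rfl

theorem mapMatrix_intCast_injective :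
    Function.Injective ((Int.castRingHom ℝ).mapMatrix : Matrix (Fin 2) (Fin 2) ℤ → _) := by
  intro A B h
  ext i j
  have := congrFun (congrFun h i) j
  simpa using this

/-- Identities between products in `GL₂(ℝ)` of integer matrices are identities of integer
matrices. -/
theorem intGL_mul_eq_mul_iff {A B C D : Matrix (Fin 2) (Fin 2) ℤ} (hA : A.det ≠ 0)
    (hB : B.det ≠ 0) (hC : C.det ≠ 0) (hD : D.det ≠ 0) :
    intGL A hA * intGL B hB = intGL C hC * intGL D hD ↔ A * B = C * D := by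
  constructor
  · intro h
    have h1 := congrArg (fun g : GL (Fin 2) ℝ => (g : Matrix (Fin 2) (Fin 2) ℝ)) h
    simp only [Units.val_mul, coe_intGL, ← map_mul] at h1
    exact mapMatrix_intCast_injective h1
  · intro h
    apply Units.ext
    simp only [Units.val_mul, coe_intGL, ← map_mul, h]

theorem intGL_eq_mul_iff {A C D : Matrix (Fin 2) (Fin 2) ℤ} (hA : A.det ≠ 0)
    (hC : C.det ≠ 0) (hD : D.det ≠ 0) :
    intGL A hA = intGL C hC * intGL D hD ↔ A = C * D := by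
  constructor
  · intro h
    have h1 := congrArg (fun g : GL (Fin 2) ℝ => (g : Matrix (Fin 2) (Fin 2) ℝ)) h
    simp only [Units.val_mul, coe_intGL, ← map_mul] at h1
    exact mapMatrix_intCast_injective h1
  · intro h
    apply Units.ext
    simp only [Units.val_mul, coe_intGL, ← map_mul, h]

theorem det_SL_ne_zero (g : SL(2, ℤ)) : (g : Matrix (Fin 2) (Fin 2) ℤ).det ≠ 0 := by
  rw [g.det_coe]
  exact one_ne_zero

theorem mapGL_eq_intGL (g : SL(2, ℤ)) :
    mapGL ℝ g = intGL (g : Matrix (Fin 2) (Fin 2) ℤ) (det_SL_ne_zero g) := by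
  apply Units.ext
  ext i j
  simp

/-- The embedding `Γ₀(K) → GL₂(ℝ)`. -/
def iotaG (K : ℕ) : Gamma0 K →* GL (Fin 2) ℝ := (mapGL ℝ).comp (Gamma0 K).subtype

theorem iotaG_apply (K : ℕ) (γ : Gamma0 K) : iotaG K γ = mapGL ℝ (γ : SL(2, ℤ)) := rfl

theorem iotaG_eq_intGL (K : ℕ) (γ : Gamma0 K) :
    iotaG K γ = intGL ((γ : SL(2, ℤ)) : Matrix (Fin 2) (Fin 2) ℤ) (det_SL_ne_zero _) :=
  mapGL_eq_intGL _

theorem iotaG_injective (K : ℕ) : Function.Injective (iotaG K) := by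
  intro a b h
  exact Subtype.ext (mapGL_injective h)

theorem mem_Gamma0_iff_dvd {K : ℕ} {g : SL(2, ℤ)} : g ∈ Gamma0 K ↔ (K : ℤ) ∣ g 1 0 := by
  rw [Gamma0_mem, ZMod.intCast_zmod_eq_zero_iff_dvd]

theorem Gamma0_dvd {K : ℕ} (γ : Gamma0 K) : (K : ℤ) ∣ (γ : SL(2, ℤ)) 1 0 :=
  mem_Gamma0_iff_dvd.mp γ.2

/-- The Hecke representatives as integer matrices. -/
def heckeInt (ℓ : ℕ) (x : OnePoint (ZMod ℓ)) : Matrix (Fin 2) (Fin 2) ℤ :=
  x.elim !![(ℓ : ℤ), 0; 0, 1] (fun j => !![1, (j.val : ℤ); 0, (ℓ : ℤ)])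

@[simp] theorem heckeInt_infty (ℓ : ℕ) : heckeInt ℓ OnePoint.infty = !![(ℓ : ℤ), 0; 0, 1] := rfl

@[simp] theorem heckeInt_coe (ℓ : ℕ) (j : ZMod ℓ) :
    heckeInt ℓ (j : OnePoint (ZMod ℓ)) = !![1, (j.val : ℤ); 0, (ℓ : ℤ)] := rfl

theorem det_heckeInt (ℓ : ℕ) (x : OnePoint (ZMod ℓ)) : (heckeInt ℓ x).det = ℓ := by
  induction x using OnePoint.rec with
  | infty => simp [Matrix.det_fin_two_of]
  | coe j => simp [Matrix.det_fin_two_of]

theorem det_heckeInt_ne_zero {ℓ : ℕ} (hℓ : ℓ ≠ 0) (x : OnePoint (ZMod ℓ)) :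
    (heckeInt ℓ x).det ≠ 0 := by
  rw [det_heckeInt]
  exact_mod_cast hℓ

theorem heckeRep_eq_intGL {ℓ : ℕ} (hℓ : ℓ ≠ 0) (x : OnePoint (ZMod ℓ)) :
    heckeRep ℓ x = intGL (heckeInt ℓ x) (det_heckeInt_ne_zero hℓ x) := by
  apply Units.ext
  induction x using OnePoint.rec with
  | infty =>
    rw [heckeRep_infty, ModularForm.val_heckeDiagMatrix hℓ]
    ext i j
    fin_cases i <;> fin_cases j <;> simp
  | coe k =>
    rw [heckeRep_coe, ModularForm.val_heckeMatrix hℓ]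
    ext i j
    fin_cases i <;> fin_cases j <;> simp

end Fermat.Agent.LDeg
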