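/-
Cluster L (S41, level raising), piece L1.  Owner: helper83.

Integer matrices of prime determinant `ℓ` with lower left entry divisible by `K` (`ℓ ∤ K`) are
`n * α_x` with `n ∈ Γ₀(K)` and a unique `x ∈ ℙ¹(𝔽_ℓ)`.
-/
import Fermat.Agent.L.Degen.IntMat

set_option autoImplicit false

noncomputable section

namespace Fermat.Agent.LDeg

open CongruenceSubgroup Matrix.SpecialLinearGroup
open scoped MatrixGroups

variable {ℓ : ℕ} [Fact ℓ.Prime]

theorem prime_ne_zero' : (ℓ : ℤ) ≠ 0 := by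
  exact_mod_cast (Fact.out : ℓ.Prime).ne_zero

theorem isCoprime_of_not_dvd {K : ℕ} (hK : ¬ ℓ ∣ K) : IsCoprime (K : ℤ) (ℓ : ℤ) := by
  rw [Int.isCoprime_iff_gcd_eq_one, Int.gcd_natCast_natCast]
  exact (Nat.Coprime.symm ((Nat.Prime.coprime_iff_not_dvd Fact.out).mpr hK))

/-- **Decomposition.** -/
theorem exists_heckeInt_decomp {K : ℕ} (hK : ¬ ℓ ∣ K) (M : Matrix (Fin 2) (Fin 2) ℤ)
    (hdet : M.det = ℓ) (hM : (K : ℤ) ∣ M 1 0) :
    ∃ (x : OnePoint (ZMod ℓ)) (n : SL(2, ℤ)), (K : ℤ) ∣ n 1 0 ∧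
      M = (n : Matrix (Fin 2) (Fin 2) ℤ) * heckeInt ℓ x := by
  have hℓ0 : (ℓ : ℤ) ≠ 0 := prime_ne_zero'
  rw [Matrix.det_fin_two] at hdet
  by_cases h : (ℓ : ℤ) ∣ M 0 0 ∧ (ℓ : ℤ) ∣ M 1 0
  · obtain ⟨⟨a, ha⟩, ⟨c, hc⟩⟩ := h
    have hdet1 : a * M 1 1 - M 0 1 * c = 1 := by
      apply mul_left_cancel₀ hℓ0
      rw [ha, hc] at hdet
      linear_combination hdet
    refine ⟨OnePoint.infty, ⟨!![a, M 0 1; c, M 1 1], by
      rw [Matrix.det_fin_two_of]; exact hdet1⟩, ?_, ?_⟩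
    · show (K : ℤ) ∣ c
      have h1 : (K : ℤ) ∣ (ℓ : ℤ) * c := hc ▸ hM
      exact (isCoprime_of_not_dvd hK).dvd_of_dvd_mul_left h1
    · ext i j
      fin_cases i <;> fin_cases j <;>
        simp [Matrix.mul_apply, Fin.sum_univ_two, ha, hc, mul_comm]
  · -- some `t` with `M 0 0 * t = M 0 1` and `M 1 0 * t = M 1 1` mod `ℓ`
    have hdetZ : ((M 0 0 : ℤ) : ZMod ℓ) * ((M 1 1 : ℤ) : ZMod ℓ) =
        ((M 0 1 : ℤ) : ZMod ℓ) * ((M 1 0 : ℤ) : ZMod ℓ) := by
      have := congrArg (Int.cast : ℤ → ZMod ℓ) hdet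
      push_cast at this
      rw [ZMod.natCast_self] at this
      linear_combination this
    obtain ⟨t, ht0, ht1⟩ : ∃ t : ZMod ℓ, ((M 0 0 : ℤ) : ZMod ℓ) * t = ((M 0 1 : ℤ) : ZMod ℓ) ∧
        ((M 1 0 : ℤ) : ZMod ℓ) * t = ((M 1 1 : ℤ) : ZMod ℓ) := by
      by_cases h0 : ((M 0 0 : ℤ) : ZMod ℓ) = 0
      · have h1 : ((M 1 0 : ℤ) : ZMod ℓ) ≠ 0 := by
          intro h1
          exact h ⟨(ZMod.intCast_zmod_eq_zero_iff_dvd _ _).mp h0,
            (ZMod.intCast_zmod_eq_zero_iff_dvd _ _).mp h1⟩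
        refine ⟨((M 1 1 : ℤ) : ZMod ℓ) / ((M 1 0 : ℤ) : ZMod ℓ), ?_, ?_⟩
        · rw [h0, zero_mul]
          rw [h0, zero_mul] at hdetZ
          rcases mul_eq_zero.mp hdetZ.symm with h2 | h2
          · exact h2.symm
          · exact absurd h2 h1
        · field_simp
      · refine ⟨((M 0 1 : ℤ) : ZMod ℓ) / ((M 0 0 : ℤ) : ZMod ℓ), ?_, ?_⟩
        · field_simp
        · field_simp
          linear_combination -hdetZ
    obtain ⟨b', hb'⟩ : (ℓ : ℤ) ∣ M 0 1 - M 0 0 * (t.val : ℤ) := by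
      rw [← ZMod.intCast_zmod_eq_zero_iff_dvd]
      push_cast
      rw [ZMod.natCast_zmod_val, ht0, sub_self]
    obtain ⟨d', hd'⟩ : (ℓ : ℤ) ∣ M 1 1 - M 1 0 * (t.val : ℤ) := by
      rw [← ZMod.intCast_zmod_eq_zero_iff_dvd]
      push_cast
      rw [ZMod.natCast_zmod_val, ht1, sub_self]
    have hdet1 : M 0 0 * d' - b' * M 1 0 = 1 := by
      apply mul_left_cancel₀ hℓ0
      linear_combination hdet - (M 0 0) * hd' + (M 1 0) * hb'
    refine ⟨(t : OnePoint (ZMod ℓ)), ⟨!![M 0 0, b'; M 1 0, d'], by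
      rw [Matrix.det_fin_two_of]; exact hdet1⟩, hM, ?_⟩
    ext i j
    fin_cases i <;> fin_cases j <;>
      simp [Matrix.mul_apply, Fin.sum_univ_two, -ZMod.natCast_val]
    · linear_combination hb'
    · linear_combination hd'

/-- **Distinctness** of the cosets `SL₂(ℤ) α_x`. -/
theorem heckeInt_distinct (n : SL(2, ℤ)) (x x' : OnePoint (ZMod ℓ))
    (h : heckeInt ℓ x = (n : Matrix (Fin 2) (Fin 2) ℤ) * heckeInt ℓ x') : x = x' := by
  have hℓ1 : ¬ (ℓ : ℤ) ∣ 1 := by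
    intro h1
    have := Int.eq_one_of_dvd_one (by positivity) h1
    have h2 : ℓ = 1 := by exact_mod_cast this
    exact (Fact.out : ℓ.Prime).one_lt.ne' h2
  have e00 := congrFun (congrFun h 0) 0
  have e01 := congrFun (congrFun h 0) 1
  have e10 := congrFun (congrFun h 1) 0
  have e11 := congrFun (congrFun h 1) 1
  induction x using OnePoint.rec with
  | infty =>
    induction x' using OnePoint.rec with
    | infty => rfl
    | coe k' =>
      exfalso
      simp [Matrix.mul_apply, Fin.sum_univ_two, -ZMod.natCast_val] at e00 e01 e10 e11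
      apply hℓ1
      refine ⟨(n : Matrix (Fin 2) (Fin 2) ℤ) 1 1, ?_⟩
      rw [← e10] at e11
      linear_combination e11
  | coe k =>
    induction x' using OnePoint.rec with
    | infty =>
      exfalso
      simp [Matrix.mul_apply, Fin.sum_univ_two, -ZMod.natCast_val] at e00 e01 e10 e11
      apply hℓ1
      refine ⟨(n : Matrix (Fin 2) (Fin 2) ℤ) 0 0, ?_⟩
      linear_combination e00
    | coe k' =>
      simp [Matrix.mul_apply, Fin.sum_univ_two, -ZMod.natCast_val] at e00 e01 e10 e11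
      congr 1
      have h1 : ((k.val : ℤ) : ZMod ℓ) = ((k'.val : ℤ) : ZMod ℓ) := by
        rw [e01, ← e00]
        push_cast
        simp
      push_cast at h1
      rwa [ZMod.natCast_zmod_val, ZMod.natCast_zmod_val] at h1

/-- The lower left entries in a Hecke relation. -/
theorem heckeInt_lowerLeft (g g' : Matrix (Fin 2) (Fin 2) ℤ) (x x' : OnePoint (ZMod ℓ))
    (h : heckeInt ℓ x * g = g' * heckeInt ℓ x') {q : ℕ} (hq : q.Prime) (hqℓ : q ≠ ℓ)
    (hg' : (q : ℤ) ∣ g' 1 0) : (q : ℤ) ∣ g 1 0 := by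
  have e10 := congrFun (congrFun h 1) 0
  have hqp : Prime (q : ℤ) := Nat.prime_iff_prime_int.mp hq
  have hqℓ' : ¬ (q : ℤ) ∣ (ℓ : ℤ) := by
    intro h1
    have h2 : q ∣ ℓ := by exact_mod_cast h1
    exact hqℓ ((Nat.prime_dvd_prime_iff_eq hq Fact.out).mp h2)
  have key : (q : ℤ) ∣ (ℓ : ℤ) * g 1 0 ∨ (q : ℤ) ∣ g 1 0 := by
    induction x using OnePoint.rec with
    | infty =>
      right
      induction x' using OnePoint.rec with
      | infty =>
        have e : g 1 0 = g' 1 0 * (ℓ : ℤ) := by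
          simpa [Matrix.mul_apply, Fin.sum_univ_two] using e10
        rw [e]
        exact Dvd.dvd.mul_right hg' _
      | coe k' =>
        have e : g 1 0 = g' 1 0 := by
          simpa [Matrix.mul_apply, Fin.sum_univ_two] using e10
        rw [e]
        exact hg'
    | coe k =>
      left
      induction x' using OnePoint.rec with
      | infty =>
        have e : (ℓ : ℤ) * g 1 0 = g' 1 0 * (ℓ : ℤ) := by
          simpa [Matrix.mul_apply, Fin.sum_univ_two] using e10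
        rw [e]
        exact Dvd.dvd.mul_right hg' _
      | coe k' =>
        have e : (ℓ : ℤ) * g 1 0 = g' 1 0 := by
          simpa [Matrix.mul_apply, Fin.sum_univ_two] using e10
        rw [e]
        exact hg'
  rcases key with h1 | h1
  · exact (hqp.dvd_or_dvd h1).resolve_left hqℓ'
  · exact h1

end Fermat.Agent.LDeg
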