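/-
Cluster L (S41, level raising), piece L1 / DEG-2.  Owner: helper83.

The wreath homs behind `T_ℓ`, `res`, `res_δ`.
-/
import Fermat.Agent.L.Defs
import Fermat.Agent.L.Degen.Wreath
import Fermat.Agent.L.Degen.Decomp

set_option autoImplicit false

noncomputable section

namespace Fermat.Agent.LDeg

open CongruenceSubgroup Matrix.SpecialLinearGroup ModularCurve.Period
open Fermat.Agent.F3EC Fermat.Agent.L
open scoped MatrixGroups
open P2MW.S_ModularForm_heckeT_slash_eq_self_of_mem_Gamma0.ModularForm.HeckeSlashInvariance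

section Hecke

variable {K : ℕ} {ℓ : ℕ} [Fact ℓ.Prime]

/-- The wreath hom of `T_ℓ` at level `K`. -/
def heckeW (hℓK : ¬ ℓ ∣ K) : WreathHom (Gamma0 K) (Gamma0 K) (OnePoint (ZMod ℓ)) where
  perm γ x := redMatrix ℓ (γ : SL(2, ℤ)) • x
  elt γ x := heckeCoset hℓK γ x
  perm_one x := by
    show redMatrix ℓ ((1 : Gamma0 K) : SL(2, ℤ)) • x = x
    rw [Subgroup.coe_one, redMatrix_one, one_smul]
  perm_mul γ δ x := by
    show redMatrix ℓ ((γ * δ : Gamma0 K) : SL(2, ℤ)) • x =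
      redMatrix ℓ (δ : SL(2, ℤ)) • (redMatrix ℓ (γ : SL(2, ℤ)) • x)
    rw [Subgroup.coe_mul, redMatrix_mul, mul_smul]
  elt_mul γ δ x := heckeCoset_mul hℓK γ δ x

theorem heckeW_op (hℓK : ¬ ℓ ∣ K) (A : Type*) [AddCommGroup A] :
    (heckeW hℓK).op A = heckeHomAll hℓK A := rfl

theorem heckeW_realizes (hℓK : ¬ ℓ ∣ K) :
    (heckeW hℓK).Realizes (iotaG K) (iotaG K) (heckeRep ℓ) :=
  fun γ x => heckeCoset_spec hℓK γ x

theorem heckeRep_cosetsDistinct (K : ℕ) : CosetsDistinct (iotaG K) (heckeRep ℓ) := by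
  intro x x' n h
  have hℓ : ℓ ≠ 0 := (Fact.out : ℓ.Prime).ne_zero
  rw [heckeRep_eq_intGL hℓ, heckeRep_eq_intGL hℓ, iotaG_eq_intGL, intGL_eq_mul_iff] at h
  exact heckeInt_distinct _ _ _ h

end Hecke

section Res

variable (N q : ℕ)

/-- The wreath hom of `res`. -/
def resW : WreathHom (Gamma0 (N * q)) (Gamma0 N) Unit where
  perm _ _ := ()
  elt γ _ := incl N q γ
  perm_one _ := rfl
  perm_mul _ _ _ := rfl
  elt_mul γ δ _ := map_mul _ γ δ

theorem resW_op (A : Type*) [AddCommGroup A] : (resW N q).op A = resAll N q A := by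
  refine AddMonoidHom.ext fun c => AddMonoidHom.ext fun γ => ?_
  obtain ⟨γ, rfl⟩ := Additive.ofMul.surjective γ
  simp [resW]

theorem resW_realizes :
    (resW N q).Realizes (iotaG (N * q)) (iotaG N) (fun _ => (1 : GL (Fin 2) ℝ)) := by
  intro γ _
  simp [resW, iotaG_apply]

variable [NeZero q]

/-- The wreath hom of `res_δ`. -/
def resDW : WreathHom (Gamma0 (N * q)) (Gamma0 N) Unit where
  perm _ _ := ()
  elt γ _ := inclD N q γ
  perm_one _ := rfl
  perm_mul _ _ _ := rfl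
  elt_mul γ δ _ := map_mul _ γ δ

theorem resDW_op (A : Type*) [AddCommGroup A] : (resDW N q).op A = resAllD N q A := by
  refine AddMonoidHom.ext fun c => AddMonoidHom.ext fun γ => ?_
  obtain ⟨γ, rfl⟩ := Additive.ofMul.surjective γ
  simp [resDW]

/-- `δ γ = (δ γ δ⁻¹) δ` as integer matrices. -/
theorem heckeInt_infty_mul (γ : Gamma0 (N * q)) :
    heckeInt q OnePoint.infty * ((γ : SL(2, ℤ)) : Matrix (Fin 2) (Fin 2) ℤ) =
      (((inclD N q γ : Gamma0 N) : SL(2, ℤ)) : Matrix (Fin 2) (Fin 2) ℤ) *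
        heckeInt q OnePoint.infty := by
  obtain ⟨c, hc⟩ := q_dvd_of_mem N q γ.2
  have hq : (q : ℤ) ≠ 0 := by exact_mod_cast NeZero.ne q
  have hdiv : (γ : SL(2, ℤ)) 1 0 / (q : ℤ) = c := by
    rw [hc, Int.mul_ediv_cancel_left _ hq]
  rw [inclD_coe]
  ext i j
  fin_cases i <;> fin_cases j <;>
    simp [conjDMat, Matrix.mul_apply, Fin.sum_univ_two, hdiv, mul_comm]
  rw [hc, mul_comm]

theorem resDW_realizes :
    (resDW N q).Realizes (iotaG (N * q)) (iotaG N) (fun _ => heckeRep q OnePoint.infty) := by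
  intro γ _
  have hq : q ≠ 0 := NeZero.ne q
  show heckeRep q OnePoint.infty * iotaG (N * q) γ =
    iotaG N (inclD N q γ) * heckeRep q OnePoint.infty
  rw [heckeRep_eq_intGL hq, iotaG_eq_intGL, iotaG_eq_intGL, intGL_mul_eq_mul_iff]
  exact heckeInt_infty_mul N q γ

end Res

end Fermat.Agent.LDeg
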