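/-
Cluster L (S41, level raising), piece L1 / DEG-2.  Owner: helper83.

Explicit right coset representatives of `Γ₀(N q)` and of `δ Γ₀(N q) δ⁻¹` in `Γ₀(N)`
(`q` prime, `q ∤ N`), indexed by `ℙ¹(𝔽_q)`.
-/
import Fermat.Agent.L.Degen.Families

set_option autoImplicit false

noncomputable section

namespace Fermat.Agent.LDeg

open CongruenceSubgroup Matrix.SpecialLinearGroup ModularCurve.Period
open Fermat.Agent.F3EC Fermat.Agent.L
open scoped MatrixGroups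

/-- An integer matrix as an element of `SL(2, ℤ)` (junk value `1` if the determinant is not `1`). -/
def mkSL (M : Matrix (Fin 2) (Fin 2) ℤ) : SL(2, ℤ) :=
  if h : M.det = 1 then ⟨M, h⟩ else 1

theorem coe_mkSL {M : Matrix (Fin 2) (Fin 2) ℤ} (h : M.det = 1) :
    ((mkSL M : SL(2, ℤ)) : Matrix (Fin 2) (Fin 2) ℤ) = M := by
  have h1 : mkSL M = ⟨M, h⟩ := dif_pos h
  rw [h1]

/-- An integer matrix as an element of `Γ₀(K)` (junk value `1`). -/
def mkGamma0 (K : ℕ) (M : Matrix (Fin 2) (Fin 2) ℤ) : Gamma0 K :=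
  if h : (K : ℤ) ∣ (mkSL M) 1 0 then ⟨mkSL M, mem_Gamma0_iff_dvd.mpr h⟩ else 1

theorem coe_mkGamma0 {K : ℕ} {M : Matrix (Fin 2) (Fin 2) ℤ} (h : M.det = 1)
    (h' : (K : ℤ) ∣ M 1 0) :
    (((mkGamma0 K M : Gamma0 K) : SL(2, ℤ)) : Matrix (Fin 2) (Fin 2) ℤ) = M := by
  have h2 : (K : ℤ) ∣ (mkSL M) 1 0 := by
    show (K : ℤ) ∣ ((mkSL M : SL(2, ℤ)) : Matrix (Fin 2) (Fin 2) ℤ) 1 0
    rw [coe_mkSL h]
    exact h'
  have h3 : mkGamma0 K M = ⟨mkSL M, mem_Gamma0_iff_dvd.mpr h2⟩ := dif_pos h2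
  rw [h3]
  exact coe_mkSL h

/-- Equality in `Γ₀(K)` is equality of integer matrices. -/
theorem Gamma0_ext {K : ℕ} {a b : Gamma0 K}
    (h : ((a : SL(2, ℤ)) : Matrix (Fin 2) (Fin 2) ℤ) = ((b : SL(2, ℤ)) : Matrix (Fin 2) (Fin 2) ℤ)) :
    a = b :=
  Subtype.ext (Subtype.ext h)

theorem coe_Gamma0_mul {K : ℕ} (a b : Gamma0 K) :
    (((a * b : Gamma0 K) : SL(2, ℤ)) : Matrix (Fin 2) (Fin 2) ℤ) =
      ((a : SL(2, ℤ)) : Matrix (Fin 2) (Fin 2) ℤ) * ((b : SL(2, ℤ)) : Matrix (Fin 2) (Fin 2) ℤ) := by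
  rw [Subgroup.coe_mul, Matrix.SpecialLinearGroup.coe_mul]

theorem det_Gamma0 {K : ℕ} (a : Gamma0 K) :
    (a : SL(2, ℤ)) 0 0 * (a : SL(2, ℤ)) 1 1 - (a : SL(2, ℤ)) 0 1 * (a : SL(2, ℤ)) 1 0 = 1 := by
  have h := (a : SL(2, ℤ)).det_coe
  rwa [Matrix.det_fin_two] at h

section Bezout

variable (N q : ℕ)

/-- Bezout coefficient `u` with `q u - N v = 1`. -/
def bezU : ℤ := Int.gcdA q N

/-- Bezout coefficient `v` with `q u - N v = 1`. -/
def bezV : ℤ := - Int.gcdB q N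

variable {N q}

theorem bez_spec (hq : q.Prime) (hqN : ¬ q ∣ N) : (q : ℤ) * bezU N q - (N : ℤ) * bezV N q = 1 := by
  have h := Int.gcd_eq_gcd_ab (q : ℤ) (N : ℤ)
  have hg : Int.gcd (q : ℤ) (N : ℤ) = 1 := by
    rw [Int.gcd_natCast_natCast]
    exact (Nat.Prime.coprime_iff_not_dvd hq).mpr hqN
  rw [hg] at h
  unfold bezU bezV
  push_cast at h
  linear_combination -h

variable (N q)

/-- The translation `[1, t; 0, 1]` in `Γ₀(K)`. -/
def translG (K : ℕ) (t : ℤ) : Gamma0 K := mkGamma0 K !![1, t; 0, 1]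

theorem coe_translG (K : ℕ) (t : ℤ) :
    (((translG K t : Gamma0 K) : SL(2, ℤ)) : Matrix (Fin 2) (Fin 2) ℤ) = !![1, t; 0, 1] :=
  coe_mkGamma0 (by simp [Matrix.det_fin_two_of]) (by simp)

/-- `n₀ = [u, v; N, q] ∈ Γ₀(N)`. -/
def bezN : Gamma0 N := mkGamma0 N !![bezU N q, bezV N q; (N : ℤ), (q : ℤ)]

/-- `m₀ = [q u, v; N, 1] ∈ Γ₀(N)`. -/
def bezM : Gamma0 N := mkGamma0 N !![(q : ℤ) * bezU N q, bezV N q; (N : ℤ), 1]

variable {N q}

theorem coe_bezN (hq : q.Prime) (hqN : ¬ q ∣ N) :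
    (((bezN N q : Gamma0 N) : SL(2, ℤ)) : Matrix (Fin 2) (Fin 2) ℤ) =
      !![bezU N q, bezV N q; (N : ℤ), (q : ℤ)] :=
  coe_mkGamma0 (by rw [Matrix.det_fin_two_of]; linear_combination bez_spec hq hqN) (by simp)

theorem coe_bezM (hq : q.Prime) (hqN : ¬ q ∣ N) :
    (((bezM N q : Gamma0 N) : SL(2, ℤ)) : Matrix (Fin 2) (Fin 2) ℤ) =
      !![(q : ℤ) * bezU N q, bezV N q; (N : ℤ), 1] :=
  coe_mkGamma0 (by rw [Matrix.det_fin_two_of]; linear_combination bez_spec hq hqN) (by simp)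

variable (N q)

/-- Right coset representatives of `Γ₀(N q)` in `Γ₀(N)`: `r_∞ = 1`, `r_t = n₀ [1, t; 0, 1]`. -/
def coresRep (y : OnePoint (ZMod q)) : Gamma0 N :=
  y.elim 1 (fun t => bezN N q * translG N (t.val : ℤ))

/-- Right coset representatives of `δ Γ₀(N q) δ⁻¹` in `Γ₀(N)`: `r_∞ = m₀`, `r_t = [1, t; 0, 1]`. -/
def coresDRep (y : OnePoint (ZMod q)) : Gamma0 N :=
  y.elim (bezM N q) (fun t => translG N (t.val : ℤ))

@[simp] theorem coresRep_infty : coresRep N q OnePoint.infty = 1 := rfl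

@[simp] theorem coresRep_coe (t : ZMod q) :
    coresRep N q (t : OnePoint (ZMod q)) = bezN N q * translG N (t.val : ℤ) := rfl

@[simp] theorem coresDRep_infty : coresDRep N q OnePoint.infty = bezM N q := rfl

@[simp] theorem coresDRep_coe (t : ZMod q) :
    coresDRep N q (t : OnePoint (ZMod q)) = translG N (t.val : ℤ) := rfl

variable {N q}

theorem coe_coresRep_coe (hq : q.Prime) (hqN : ¬ q ∣ N) (t : ZMod q) :
    (((coresRep N q (t : OnePoint (ZMod q)) : Gamma0 N) : SL(2, ℤ)) :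
        Matrix (Fin 2) (Fin 2) ℤ) =
      !![bezU N q, bezU N q * (t.val : ℤ) + bezV N q; (N : ℤ), (N : ℤ) * (t.val : ℤ) + q] := by
  rw [coresRep_coe, coe_Gamma0_mul, coe_bezN hq hqN, coe_translG]
  ext i j
  fin_cases i <;> fin_cases j <;> simp [Matrix.mul_apply, Fin.sum_univ_two]

end Bezout

end Fermat.Agent.LDeg
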