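/-
Cluster L (S41, level raising), piece L1 / DEG-2.  Owner: helper83.

The families `coresRep`, `coresDRep` are complete systems of right coset representatives, and
the attached wreath homs `coresW`, `coresDW` (= the two corestrictions).
-/
import Fermat.Agent.L.Degen.Reps

set_option autoImplicit false

noncomputable section

namespace Fermat.Agent.LDeg

open CongruenceSubgroup Matrix.SpecialLinearGroup ModularCurve.Period
open Fermat.Agent.F3EC Fermat.Agent.L
open scoped MatrixGroups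

variable {N q : ℕ}

theorem isCoprime_N_q (hq : q.Prime) (hqN : ¬ q ∣ N) : IsCoprime (N : ℤ) (q : ℤ) := by
  rw [Int.isCoprime_iff_gcd_eq_one, Int.gcd_natCast_natCast]
  exact (Nat.Coprime.symm ((Nat.Prime.coprime_iff_not_dvd hq).mpr hqN))

theorem N_ne_zero_mod (_hq : q.Prime) (hqN : ¬ q ∣ N) : ((N : ℤ) : ZMod q) ≠ 0 := by
  intro h
  rw [ZMod.intCast_zmod_eq_zero_iff_dvd] at h
  exact hqN (by exact_mod_cast h)

theorem mem_Gamma0_mul (hq : q.Prime) (hqN : ¬ q ∣ N) {g : SL(2, ℤ)} (h1 : (N : ℤ) ∣ g 1 0)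
    (h2 : (q : ℤ) ∣ g 1 0) : g ∈ Gamma0 (N * q) := by
  rw [mem_Gamma0_iff_dvd]
  push_cast
  exact (isCoprime_N_q hq hqN).mul_dvd h1 h2

theorem q_dvd_of_Gamma0_mul (e : Gamma0 (N * q)) : (q : ℤ) ∣ (e : SL(2, ℤ)) 1 0 :=
  Dvd.dvd.trans (by push_cast; exact Dvd.intro_left _ rfl) (Gamma0_dvd e)

/-- The diagonal entries of an element of `Γ₀(N q)` are inverse to each other mod `q`. -/
theorem diag_mul_mod (e : Gamma0 (N * q)) :
    (((e : SL(2, ℤ)) 0 0 : ℤ) : ZMod q) * (((e : SL(2, ℤ)) 1 1 : ℤ) : ZMod q) = 1 := by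
  have h := det_Gamma0 e
  have h2 : (((e : SL(2, ℤ)) 1 0 : ℤ) : ZMod q) = 0 :=
    (ZMod.intCast_zmod_eq_zero_iff_dvd _ _).mpr (q_dvd_of_Gamma0_mul e)
  have := congrArg (Int.cast : ℤ → ZMod q) h
  push_cast at this
  rw [h2, mul_zero, sub_zero] at this
  exact this

section Incl

/-- Every element of `Γ₀(N)` lies in some coset `Γ₀(N q) r_y`. -/
theorem cover_incl (hq : q.Prime) (hqN : ¬ q ∣ N) (g : Gamma0 N) :
    ∃ (y : OnePoint (ZMod q)) (e : Gamma0 (N * q)), g = incl N q e * coresRep N q y := by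
  have : Fact q.Prime := ⟨hq⟩
  by_cases hg : (q : ℤ) ∣ (g : SL(2, ℤ)) 1 0
  · refine ⟨OnePoint.infty, ⟨(g : SL(2, ℤ)), mem_Gamma0_mul hq hqN (Gamma0_dvd g) hg⟩, ?_⟩
    rw [coresRep_infty, mul_one]
    exact Subtype.ext rfl
  · have hg0 : (((g : SL(2, ℤ)) 1 0 : ℤ) : ZMod q) ≠ 0 := by
      rwa [Ne, ZMod.intCast_zmod_eq_zero_iff_dvd]
    obtain ⟨t, htg⟩ : ∃ t : ZMod q,
        (((g : SL(2, ℤ)) 1 0 : ℤ) : ZMod q) * t = (((g : SL(2, ℤ)) 1 1 : ℤ) : ZMod q) :=
      ⟨(((g : SL(2, ℤ)) 1 1 : ℤ) : ZMod q) / (((g : SL(2, ℤ)) 1 0 : ℤ) : ZMod q), by field_simp⟩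
    set R : Gamma0 N := coresRep N q (t : OnePoint (ZMod q)) with hR
    have hRm := coe_coresRep_coe hq hqN t
    have he0 : (g : SL(2, ℤ)) * ((R : Gamma0 N) : SL(2, ℤ))⁻¹ ∈ Gamma0 (N * q) := by
      have hentry : ((g : SL(2, ℤ)) * ((R : Gamma0 N) : SL(2, ℤ))⁻¹) 1 0 =
          (g : SL(2, ℤ)) 1 0 * ((N : ℤ) * (t.val : ℤ) + q) - (g : SL(2, ℤ)) 1 1 * (N : ℤ) := by
        rw [Matrix.SpecialLinearGroup.coe_mul, Matrix.SpecialLinearGroup.coe_inv,
          Matrix.adjugate_fin_two, hRm]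
        simp [Matrix.mul_apply, Fin.sum_univ_two]
        ring
      apply mem_Gamma0_mul hq hqN
      · rw [hentry]
        exact Dvd.dvd.sub (Dvd.dvd.mul_right (Gamma0_dvd g) _) (Dvd.intro_left _ rfl)
      · rw [hentry, ← ZMod.intCast_zmod_eq_zero_iff_dvd]
        push_cast
        rw [ZMod.natCast_zmod_val, ZMod.natCast_self]
        linear_combination (N : ZMod q) * htg
    refine ⟨(t : OnePoint (ZMod q)), ⟨_, he0⟩, ?_⟩
    apply Subtype.ext
    rw [Subgroup.coe_mul, incl_coe]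
    show (g : SL(2, ℤ)) = (g : SL(2, ℤ)) * ((R : Gamma0 N) : SL(2, ℤ))⁻¹ * (R : SL(2, ℤ))
    rw [inv_mul_cancel_right]

/-- The cosets `Γ₀(N q) r_y` are pairwise distinct. -/
theorem distinct_incl (hq : q.Prime) (hqN : ¬ q ∣ N) :
    CosetsDistinct (incl N q) (coresRep N q) := by
  have : Fact q.Prime := ⟨hq⟩
  intro y y' e h
  have hN0 := N_ne_zero_mod hq hqN
  have he10 : (((e : SL(2, ℤ)) 1 0 : ℤ) : ZMod q) = 0 :=
    (ZMod.intCast_zmod_eq_zero_iff_dvd _ _).mpr (q_dvd_of_Gamma0_mul e)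
  have hdiag := diag_mul_mod e
  have he11 : (((e : SL(2, ℤ)) 1 1 : ℤ) : ZMod q) ≠ 0 := by
    intro h0
    rw [h0, mul_zero] at hdiag
    exact zero_ne_one hdiag
  have hm : (((coresRep N q y : Gamma0 N) : SL(2, ℤ)) : Matrix (Fin 2) (Fin 2) ℤ) =
      ((e : SL(2, ℤ)) : Matrix (Fin 2) (Fin 2) ℤ) *
        (((coresRep N q y' : Gamma0 N) : SL(2, ℤ)) : Matrix (Fin 2) (Fin 2) ℤ) := by
    rw [h, coe_Gamma0_mul, incl_coe]
  have e10 := congrFun (congrFun hm 1) 0
  have e11 := congrFun (congrFun hm 1) 1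
  induction y using OnePoint.rec with
  | infty =>
    induction y' using OnePoint.rec with
    | infty => rfl
    | coe t' =>
      exfalso
      rw [coe_coresRep_coe hq hqN] at e10
      simp [Matrix.mul_apply, Fin.sum_univ_two] at e10
      have := congrArg (Int.cast : ℤ → ZMod q) e10
      push_cast at this
      rw [he10, zero_mul, zero_add] at this
      rcases mul_eq_zero.mp this.symm with h1 | h1
      · exact he11 h1
      · exact hN0 (by exact_mod_cast h1)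
  | coe t =>
    induction y' using OnePoint.rec with
    | infty =>
      exfalso
      rw [coe_coresRep_coe hq hqN] at e10
      simp [Matrix.mul_apply, Fin.sum_univ_two] at e10
      have := congrArg (Int.cast : ℤ → ZMod q) e10
      push_cast at this
      rw [he10] at this
      exact hN0 (by exact_mod_cast this)
    | coe t' =>
      rw [coe_coresRep_coe hq hqN, coe_coresRep_coe hq hqN] at e10 e11
      simp [Matrix.mul_apply, Fin.sum_univ_two, -ZMod.natCast_val] at e10 e11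
      have h10 := congrArg (Int.cast : ℤ → ZMod q) e10
      have h11 := congrArg (Int.cast : ℤ → ZMod q) e11
      push_cast at h10 h11
      rw [he10, zero_mul, zero_add] at h10
      rw [he10, zero_mul, zero_add, ZMod.natCast_zmod_val, ZMod.natCast_zmod_val,
        ZMod.natCast_self, add_zero, add_zero] at h11
      have hN0' : ((N : ℕ) : ZMod q) ≠ 0 := by exact_mod_cast hN0
      have h1 : (((e : SL(2, ℤ)) 1 1 : ℤ) : ZMod q) = 1 := by
        have : (((e : SL(2, ℤ)) 1 1 : ℤ) : ZMod q) * (N : ZMod q) = 1 * (N : ZMod q) := by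
          rw [one_mul]; exact h10.symm
        exact mul_right_cancel₀ hN0' this
      rw [h1, one_mul] at h11
      congr 1
      exact mul_left_cancel₀ hN0' h11

end Incl

section InclD

theorem coe_coresDRep_coe (t : ZMod q) :
    (((coresDRep N q (t : OnePoint (ZMod q)) : Gamma0 N) : SL(2, ℤ)) :
        Matrix (Fin 2) (Fin 2) ℤ) = !![1, (t.val : ℤ); 0, 1] := by
  rw [coresDRep_coe, coe_translG]

theorem coe_coresDRep_infty (hq : q.Prime) (hqN : ¬ q ∣ N) :
    (((coresDRep N q OnePoint.infty : Gamma0 N) : SL(2, ℤ)) : Matrix (Fin 2) (Fin 2) ℤ) =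
      !![(q : ℤ) * bezU N q, bezV N q; (N : ℤ), 1] := by
  rw [coresDRep_infty, coe_bezM hq hqN]

variable [NeZero q]

theorem inclD_apply_zero_one (e : Gamma0 (N * q)) :
    ((inclD N q e : Gamma0 N) : SL(2, ℤ)) 0 1 = (q : ℤ) * (e : SL(2, ℤ)) 0 1 := by
  show (((inclD N q e : Gamma0 N) : SL(2, ℤ)) : Matrix (Fin 2) (Fin 2) ℤ) 0 1 = _
  rw [inclD_coe]
  simp [conjDMat]

theorem inclD_apply_zero_zero (e : Gamma0 (N * q)) :
    ((inclD N q e : Gamma0 N) : SL(2, ℤ)) 0 0 = (e : SL(2, ℤ)) 0 0 := by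
  show (((inclD N q e : Gamma0 N) : SL(2, ℤ)) : Matrix (Fin 2) (Fin 2) ℤ) 0 0 = _
  rw [inclD_coe]
  simp [conjDMat]

/-- The image of `inclD`: the elements of `Γ₀(N)` with upper right entry divisible by `q`. -/
theorem exists_inclD_eq (g : Gamma0 N) (hg : (q : ℤ) ∣ (g : SL(2, ℤ)) 0 1) :
    ∃ e : Gamma0 (N * q), inclD N q e = g := by
  obtain ⟨b, hb⟩ := hg
  obtain ⟨c, hc⟩ := Gamma0_dvd g
  have hq0 : (q : ℤ) ≠ 0 := by exact_mod_cast NeZero.ne q
  have hdet := det_Gamma0 g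
  have hcoe : (((mkGamma0 (N * q)
      !![(g : SL(2, ℤ)) 0 0, b; (q : ℤ) * (g : SL(2, ℤ)) 1 0, (g : SL(2, ℤ)) 1 1] :
        Gamma0 (N * q)) : SL(2, ℤ)) : Matrix (Fin 2) (Fin 2) ℤ) =
      !![(g : SL(2, ℤ)) 0 0, b; (q : ℤ) * (g : SL(2, ℤ)) 1 0, (g : SL(2, ℤ)) 1 1] := by
    apply coe_mkGamma0
    · rw [Matrix.det_fin_two_of]
      rw [hb] at hdet
      linear_combination hdet
    · simp only [Matrix.of_apply, Matrix.cons_val', Matrix.cons_val_one, Matrix.cons_val_zero]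
      rw [hc]
      push_cast
      exact ⟨c, by ring⟩
  refine ⟨mkGamma0 (N * q)
    !![(g : SL(2, ℤ)) 0 0, b; (q : ℤ) * (g : SL(2, ℤ)) 1 0, (g : SL(2, ℤ)) 1 1], ?_⟩
  apply Gamma0_ext
  rw [inclD_coe]
  unfold conjDMat
  have h00 : ∀ i j, ((mkGamma0 (N * q)
      !![(g : SL(2, ℤ)) 0 0, b; (q : ℤ) * (g : SL(2, ℤ)) 1 0, (g : SL(2, ℤ)) 1 1] :
        Gamma0 (N * q)) : SL(2, ℤ)) i j =
      (!![(g : SL(2, ℤ)) 0 0, b; (q : ℤ) * (g : SL(2, ℤ)) 1 0, (g : SL(2, ℤ)) 1 1] :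
        Matrix (Fin 2) (Fin 2) ℤ) i j := fun i j => congrFun (congrFun hcoe i) j
  ext i j
  fin_cases i <;> fin_cases j
  · simp [h00]
  · simp [h00, hb]
  · simp [h00, Int.mul_ediv_cancel_left _ hq0]
  · simp [h00]

/-- Every element of `Γ₀(N)` lies in some coset `δ Γ₀(N q) δ⁻¹ r_y`. -/
theorem cover_inclD (hq : q.Prime) (hqN : ¬ q ∣ N) (g : Gamma0 N) :
    ∃ (y : OnePoint (ZMod q)) (e : Gamma0 (N * q)), g = inclD N q e * coresDRep N q y := by
  have : Fact q.Prime := ⟨hq⟩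
  by_cases hg : (q : ℤ) ∣ (g : SL(2, ℤ)) 0 0
  · have hmem : (q : ℤ) ∣ ((g * (coresDRep N q OnePoint.infty)⁻¹ : Gamma0 N) : SL(2, ℤ)) 0 1 := by
      have hentry : ((g * (coresDRep N q OnePoint.infty)⁻¹ : Gamma0 N) : SL(2, ℤ)) 0 1 =
          - (g : SL(2, ℤ)) 0 0 * bezV N q + (g : SL(2, ℤ)) 0 1 * ((q : ℤ) * bezU N q) := by
        rw [Subgroup.coe_mul, Subgroup.coe_inv, Matrix.SpecialLinearGroup.coe_mul,
          Matrix.SpecialLinearGroup.coe_inv, Matrix.adjugate_fin_two,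
          coe_coresDRep_infty hq hqN]
        simp [Matrix.mul_apply, Fin.sum_univ_two]
      rw [hentry]
      exact Dvd.dvd.add (Dvd.dvd.mul_right (Dvd.dvd.neg_right hg) _)
        (Dvd.dvd.mul_left (Dvd.intro _ rfl) _)
    obtain ⟨e, he⟩ := exists_inclD_eq _ hmem
    exact ⟨OnePoint.infty, e, by rw [he, inv_mul_cancel_right]⟩
  · have hg0 : (((g : SL(2, ℤ)) 0 0 : ℤ) : ZMod q) ≠ 0 := by
      rwa [Ne, ZMod.intCast_zmod_eq_zero_iff_dvd]
    obtain ⟨t, htg⟩ : ∃ t : ZMod q,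
        (((g : SL(2, ℤ)) 0 0 : ℤ) : ZMod q) * t = (((g : SL(2, ℤ)) 0 1 : ℤ) : ZMod q) :=
      ⟨(((g : SL(2, ℤ)) 0 1 : ℤ) : ZMod q) / (((g : SL(2, ℤ)) 0 0 : ℤ) : ZMod q), by field_simp⟩
    have hmem : (q : ℤ) ∣
        ((g * (coresDRep N q (t : OnePoint (ZMod q)))⁻¹ : Gamma0 N) : SL(2, ℤ)) 0 1 := by
      have hentry : ((g * (coresDRep N q (t : OnePoint (ZMod q)))⁻¹ : Gamma0 N) : SL(2, ℤ)) 0 1 =
          - (g : SL(2, ℤ)) 0 0 * (t.val : ℤ) + (g : SL(2, ℤ)) 0 1 := by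
        rw [Subgroup.coe_mul, Subgroup.coe_inv, Matrix.SpecialLinearGroup.coe_mul,
          Matrix.SpecialLinearGroup.coe_inv, Matrix.adjugate_fin_two, coe_coresDRep_coe]
        simp [Matrix.mul_apply, Fin.sum_univ_two, -ZMod.natCast_val]
      rw [hentry, ← ZMod.intCast_zmod_eq_zero_iff_dvd]
      push_cast
      rw [ZMod.natCast_zmod_val]
      linear_combination -htg
    obtain ⟨e, he⟩ := exists_inclD_eq _ hmem
    exact ⟨(t : OnePoint (ZMod q)), e, by rw [he, inv_mul_cancel_right]⟩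

/-- The cosets `δ Γ₀(N q) δ⁻¹ r_y` are pairwise distinct. -/
theorem distinct_inclD (hq : q.Prime) (hqN : ¬ q ∣ N) :
    CosetsDistinct (inclD N q) (coresDRep N q) := by
  have : Fact q.Prime := ⟨hq⟩
  intro y y' e h
  have hdiag := diag_mul_mod e
  have he00 : (((e : SL(2, ℤ)) 0 0 : ℤ) : ZMod q) ≠ 0 := by
    intro h0
    rw [h0, zero_mul] at hdiag
    exact zero_ne_one hdiag
  have hm : (((coresDRep N q y : Gamma0 N) : SL(2, ℤ)) : Matrix (Fin 2) (Fin 2) ℤ) =
      (((inclD N q e : Gamma0 N) : SL(2, ℤ)) : Matrix (Fin 2) (Fin 2) ℤ) *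
        (((coresDRep N q y' : Gamma0 N) : SL(2, ℤ)) : Matrix (Fin 2) (Fin 2) ℤ) := by
    rw [h, coe_Gamma0_mul]
  have e00 := congrFun (congrFun hm 0) 0
  have e01 := congrFun (congrFun hm 0) 1
  rw [Matrix.mul_apply, Fin.sum_univ_two] at e00 e01
  have h00 := inclD_apply_zero_zero e
  have h01 := inclD_apply_zero_one e
  change (((inclD N q e : Gamma0 N) : SL(2, ℤ)) : Matrix (Fin 2) (Fin 2) ℤ) 0 0 = _ at h00
  change (((inclD N q e : Gamma0 N) : SL(2, ℤ)) : Matrix (Fin 2) (Fin 2) ℤ) 0 1 = _ at h01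
  rw [h00, h01] at e00 e01
  induction y using OnePoint.rec with
  | infty =>
    induction y' using OnePoint.rec with
    | infty => rfl
    | coe t' =>
      exfalso
      rw [coe_coresDRep_infty hq hqN, coe_coresDRep_coe] at e00
      simp at e00
      have := congrArg (Int.cast : ℤ → ZMod q) e00
      push_cast at this
      rw [ZMod.natCast_self, zero_mul] at this
      exact he00 this.symm
  | coe t =>
    induction y' using OnePoint.rec with
    | infty =>
      exfalso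
      rw [coe_coresDRep_infty hq hqN, coe_coresDRep_coe] at e00
      simp at e00
      have := congrArg (Int.cast : ℤ → ZMod q) e00
      push_cast at this
      have h1 : (1 : ZMod q) = 0 := by simpa [ZMod.natCast_self] using this
      exact one_ne_zero h1
    | coe t' =>
      rw [coe_coresDRep_coe, coe_coresDRep_coe] at e00 e01
      simp [-ZMod.natCast_val] at e00 e01
      have h1 := congrArg (Int.cast : ℤ → ZMod q) e01
      push_cast at h1
      rw [← e00, ZMod.natCast_zmod_val, ZMod.natCast_zmod_val, ZMod.natCast_self, zero_mul,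
        add_zero] at h1
      congr 1
      simpa using h1

end InclD

section Wreath

/-- The wreath hom of the corestriction along `incl`. -/
def coresW (hq : q.Prime) (hqN : ¬ q ∣ N) :
    WreathHom (Gamma0 N) (Gamma0 (N * q)) (OnePoint (ZMod q)) :=
  WreathHom.ofUnique (ι := MonoidHom.id (Gamma0 N)) (ι' := incl N q) (rep := coresRep N q)
    (fun γ i => by
      obtain ⟨y, e, h⟩ := cover_incl hq hqN (coresRep N q i * γ)
      exact ⟨y, e, h⟩)
    (Subgroup.inclusion_injective _) (distinct_incl hq hqN)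

theorem coresW_realizes (hq : q.Prime) (hqN : ¬ q ∣ N) :
    (coresW hq hqN).Realizes (MonoidHom.id (Gamma0 N)) (incl N q) (coresRep N q) :=
  WreathHom.ofUnique_realizes _ _ _

variable [NeZero q]

/-- The wreath hom of the corestriction along `inclD`. -/
def coresDW (hq : q.Prime) (hqN : ¬ q ∣ N) :
    WreathHom (Gamma0 N) (Gamma0 (N * q)) (OnePoint (ZMod q)) :=
  WreathHom.ofUnique (ι := MonoidHom.id (Gamma0 N)) (ι' := inclD N q) (rep := coresDRep N q)
    (fun γ i => by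
      obtain ⟨y, e, h⟩ := cover_inclD hq hqN (coresDRep N q i * γ)
      exact ⟨y, e, h⟩)
    (inclD_injective N q) (distinct_inclD hq hqN)

theorem coresDW_realizes (hq : q.Prime) (hqN : ¬ q ∣ N) :
    (coresDW hq hqN).Realizes (MonoidHom.id (Gamma0 N)) (inclD N q) (coresDRep N q) :=
  WreathHom.ofUnique_realizes _ _ _

end Wreath

end Fermat.Agent.LDeg
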