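/-
Cluster L (S41, level raising), piece DEG-2 (d).  Owner: helper83.

`cores ∘ res_δ = T_q = cores_δ ∘ res` on `Hom(Γ₀(N), A)`.
-/
import Fermat.Agent.L.Degen.Cover
import Fermat.Agent.L.Degen.Wreath2
import Fermat.Agent.L.Degen.Bridge
import Fermat.Agent.L.Degen.CoresIndex

set_option autoImplicit false

noncomputable section

namespace Fermat.Agent.LDeg

open CongruenceSubgroup Matrix.SpecialLinearGroup ModularCurve.Period
open Fermat.Agent.F3EC Fermat.Agent.L
open scoped MatrixGroups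
open P2MW.S_ModularForm_heckeT_slash_eq_self_of_mem_Gamma0.ModularForm.HeckeSlashInvariance

variable {N q : ℕ}

theorem iotaG_comp_incl : (iotaG N).comp (incl N q) = iotaG (N * q) := rfl

section RealizeInGL

variable [NeZero q]

/-- `α₀ (δ γ δ⁻¹) = γ α₀` for `α₀ = [1, 0; 0, q]`. -/
theorem heckeInt_zero_mul (γ : Gamma0 (N * q)) :
    heckeInt q ((0 : ZMod q) : OnePoint (ZMod q)) *
        (((inclD N q γ : Gamma0 N) : SL(2, ℤ)) : Matrix (Fin 2) (Fin 2) ℤ) =
      ((γ : SL(2, ℤ)) : Matrix (Fin 2) (Fin 2) ℤ) *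
        heckeInt q ((0 : ZMod q) : OnePoint (ZMod q)) := by
  obtain ⟨c, hc⟩ := q_dvd_of_mem N q γ.2
  have hq : (q : ℤ) ≠ 0 := by exact_mod_cast NeZero.ne q
  have hdiv : (γ : SL(2, ℤ)) 1 0 / (q : ℤ) = c := by
    rw [hc, Int.mul_ediv_cancel_left _ hq]
  rw [inclD_coe]
  ext i j
  fin_cases i <;> fin_cases j <;>
    simp [conjDMat, Matrix.mul_apply, Fin.sum_univ_two, hdiv, mul_comm]
  rw [hc, mul_comm]

theorem heckeRep_zero_mul (γ : Gamma0 (N * q)) :
    heckeRep q ((0 : ZMod q) : OnePoint (ZMod q)) * iotaG N (inclD N q γ) =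
      iotaG (N * q) γ * heckeRep q ((0 : ZMod q) : OnePoint (ZMod q)) := by
  have hq : q ≠ 0 := NeZero.ne q
  rw [heckeRep_eq_intGL hq, iotaG_eq_intGL, iotaG_eq_intGL, intGL_mul_eq_mul_iff]
  exact heckeInt_zero_mul γ

theorem coresW_realizes_GL (hq : q.Prime) (hqN : ¬ q ∣ N) :
    (coresW hq hqN).Realizes (iotaG N) (iotaG (N * q)) (fun y => iotaG N (coresRep N q y)) := by
  have h := (coresW_realizes hq hqN).map (iotaG N)
  rwa [MonoidHom.comp_id, iotaG_comp_incl] at h

theorem coresDW_realizes_GL (hq : q.Prime) (hqN : ¬ q ∣ N) :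
    (coresDW hq hqN).Realizes (iotaG N) (iotaG (N * q))
      (fun y => heckeRep q ((0 : ZMod q) : OnePoint (ZMod q)) * iotaG N (coresDRep N q y)) := by
  have h := (coresDW_realizes hq hqN).map (iotaG N)
  rw [MonoidHom.comp_id] at h
  exact h.of_conj _ (fun e => heckeRep_zero_mul e)

end RealizeInGL

section DegD

variable [NeZero q] [Fact q.Prime]

/-- The elements `n_y ∈ Γ₀(N)` with `δ r_y = n_y α_y`. -/
def twistD1 (N q : ℕ) (y : OnePoint (ZMod q)) : Gamma0 N :=
  y.elim 1 (fun _ => bezM N q)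

/-- The elements `n_y ∈ Γ₀(N)` with `α₀ r^δ_y = n_y α_y`. -/
def twistD2 (N q : ℕ) (y : OnePoint (ZMod q)) : Gamma0 N :=
  y.elim (bezN N q) (fun _ => 1)

theorem delta_mul_coresRep (hqN : ¬ q ∣ N) (y : OnePoint (ZMod q)) :
    heckeRep q OnePoint.infty * iotaG N (coresRep N q y) =
      iotaG N (twistD1 N q y) * heckeRep q y := by
  have hq : q.Prime := Fact.out
  have hq0 : q ≠ 0 := hq.ne_zero
  rw [heckeRep_eq_intGL hq0, heckeRep_eq_intGL hq0, iotaG_eq_intGL, iotaG_eq_intGL,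
    intGL_mul_eq_mul_iff]
  induction y using OnePoint.rec with
  | infty =>
    show heckeInt q OnePoint.infty * (((1 : Gamma0 N) : SL(2, ℤ)) : Matrix (Fin 2) (Fin 2) ℤ) =
      (((1 : Gamma0 N) : SL(2, ℤ)) : Matrix (Fin 2) (Fin 2) ℤ) * heckeInt q OnePoint.infty
    simp
  | coe t =>
    show heckeInt q OnePoint.infty *
        (((coresRep N q (t : OnePoint (ZMod q)) : Gamma0 N) : SL(2, ℤ)) :
          Matrix (Fin 2) (Fin 2) ℤ) =
      (((bezM N q : Gamma0 N) : SL(2, ℤ)) : Matrix (Fin 2) (Fin 2) ℤ) *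
        heckeInt q (t : OnePoint (ZMod q))
    rw [coe_coresRep_coe hq hqN, coe_bezM hq hqN]
    ext i j
    fin_cases i <;> fin_cases j <;>
      simp [Matrix.mul_apply, Fin.sum_univ_two, -ZMod.natCast_val] <;> ring

theorem alpha_zero_mul_coresDRep (hqN : ¬ q ∣ N) (y : OnePoint (ZMod q)) :
    heckeRep q ((0 : ZMod q) : OnePoint (ZMod q)) * iotaG N (coresDRep N q y) =
      iotaG N (twistD2 N q y) * heckeRep q y := by
  have hq : q.Prime := Fact.out
  have hq0 : q ≠ 0 := hq.ne_zero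
  rw [heckeRep_eq_intGL hq0, heckeRep_eq_intGL hq0, iotaG_eq_intGL, iotaG_eq_intGL,
    intGL_mul_eq_mul_iff]
  induction y using OnePoint.rec with
  | infty =>
    show heckeInt q ((0 : ZMod q) : OnePoint (ZMod q)) *
        (((coresDRep N q OnePoint.infty : Gamma0 N) : SL(2, ℤ)) : Matrix (Fin 2) (Fin 2) ℤ) =
      (((bezN N q : Gamma0 N) : SL(2, ℤ)) : Matrix (Fin 2) (Fin 2) ℤ) *
        heckeInt q OnePoint.infty
    rw [coe_coresDRep_infty hq hqN, coe_bezN hq hqN]
    ext i j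
    fin_cases i <;> fin_cases j <;>
      simp [Matrix.mul_apply, Fin.sum_univ_two] <;> ring
  | coe t =>
    show heckeInt q ((0 : ZMod q) : OnePoint (ZMod q)) *
        (((coresDRep N q (t : OnePoint (ZMod q)) : Gamma0 N) : SL(2, ℤ)) :
          Matrix (Fin 2) (Fin 2) ℤ) =
      (((1 : Gamma0 N) : SL(2, ℤ)) : Matrix (Fin 2) (Fin 2) ℤ) *
        heckeInt q (t : OnePoint (ZMod q))
    rw [coe_coresDRep_coe]
    ext i j
    fin_cases i <;> fin_cases j <;>
      simp [Matrix.mul_apply, Fin.sum_univ_two, -ZMod.natCast_val]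

/-- **(d1)** at the level of wreath homs: `cores ∘ res_δ = T_q`. -/
theorem coresW_op_resAllD (hqN : ¬ q ∣ N) (A : Type*) [AddCommGroup A]
    (c : Additive (Gamma0 N) →+ A) :
    (coresW Fact.out hqN).op A (resAllD N q A c) = heckeHomAll hqN A c := by
  have hq : q.Prime := Fact.out
  have h1 := (coresW_realizes_GL hq hqN).comp (resDW_realizes N q)
  have h2 := WreathHom.op_eq_of_realizes (heckeW_realizes hqN) h1 (iotaG_injective N)
    (heckeRep_cosetsDistinct N) (Equiv.punitProd _) (fun ji => twistD1 N q ji.2)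
    (fun ji => delta_mul_coresRep hqN ji.2) A
  rw [WreathHom.op_comp, heckeW_op, resDW_op] at h2
  exact congrFun (congrArg DFunLike.coe h2) c

/-- **(d2)** at the level of wreath homs: `cores_δ ∘ res = T_q`. -/
theorem coresDW_op_resAll (hqN : ¬ q ∣ N) (A : Type*) [AddCommGroup A]
    (c : Additive (Gamma0 N) →+ A) :
    (coresDW Fact.out hqN).op A (resAll N q A c) = heckeHomAll hqN A c := by
  have hq : q.Prime := Fact.out
  have h1 := (coresDW_realizes_GL hq hqN).comp (resW_realizes N q)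
  have h2 := WreathHom.op_eq_of_realizes (heckeW_realizes hqN) h1 (iotaG_injective N)
    (heckeRep_cosetsDistinct N) (Equiv.punitProd _) (fun ji => twistD2 N q ji.2)
    (fun ji => by
      show 1 * (heckeRep q ((0 : ZMod q) : OnePoint (ZMod q)) * iotaG N (coresDRep N q ji.2)) = _
      rw [one_mul]
      exact alpha_zero_mul_coresDRep hqN ji.2) A
  rw [WreathHom.op_comp, heckeW_op, resW_op] at h2
  exact congrFun (congrArg DFunLike.coe h2) c

/-- **DEG-2 (d1).** `cores (res_δ c) = T_q c`. -/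
theorem coresAll_resAllD (hqN : ¬ q ∣ N) (A : Type*) [AddCommGroup A]
    (c : Additive (Gamma0 N) →+ A) :
    coresAll N q A (resAllD N q A c) = heckeHomAll hqN A c := by
  rw [coresAll_eq_op Fact.out hqN, coresW_op_resAllD hqN]

/-- **DEG-2 (d2).** `cores_δ (res c) = T_q c`. -/
theorem coresAllD_resAll (hqN : ¬ q ∣ N) (A : Type*) [AddCommGroup A]
    (c : Additive (Gamma0 N) →+ A) :
    coresAllD N q A (resAll N q A c) = heckeHomAll hqN A c := by
  rw [coresAllD_eq_op Fact.out hqN, coresDW_op_resAll hqN]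

end DegD

end Fermat.Agent.LDeg
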