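/-
Cluster L (S41, level raising), piece DEG-2 (e).  Owner: helper83.

`T_ℓ` (`ℓ ∤ N q`) commutes with `res`, `res_δ`, `cores`, `cores_δ` on `Hom(Γ₀(·), A)`.
-/
import Fermat.Agent.L.Degen.Identities

set_option autoImplicit false

noncomputable section

namespace Fermat.Agent.LDeg

open CongruenceSubgroup Matrix.SpecialLinearGroup ModularCurve.Period
open Fermat.Agent.F3EC Fermat.Agent.L
open scoped MatrixGroups
open P2MW.S_ModularForm_heckeT_slash_eq_self_of_mem_Gamma0.ModularForm.HeckeSlashInvariance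

theorem intGL_mul (A B : Matrix (Fin 2) (Fin 2) ℤ) (hA : A.det ≠ 0) (hB : B.det ≠ 0) :
    intGL A hA * intGL B hB = intGL (A * B) (by rw [Matrix.det_mul]; exact mul_ne_zero hA hB) := by
  apply Units.ext
  simp only [Units.val_mul, coe_intGL, map_mul]

theorem intGL_injective {A B : Matrix (Fin 2) (Fin 2) ℤ} (hA : A.det ≠ 0) (hB : B.det ≠ 0)
    (h : intGL A hA = intGL B hB) : A = B := by
  have h1 := congrArg (fun g : GL (Fin 2) ℝ => (g : Matrix (Fin 2) (Fin 2) ℝ)) h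
  simp only [coe_intGL] at h1
  exact mapMatrix_intCast_injective h1

variable {N q ℓ : ℕ} [Fact ℓ.Prime]

section Res

/-- **DEG-2 (e)** for `res`. -/
theorem resAll_heckeHomAll (hℓN : ¬ ℓ ∣ N) (hℓNq : ¬ ℓ ∣ N * q) (A : Type*) [AddCommGroup A]
    (c : Additive (Gamma0 N) →+ A) :
    resAll N q A (heckeHomAll hℓN A c) = heckeHomAll hℓNq A (resAll N q A c) := by
  have h1 := (resW_realizes N q).comp (heckeW_realizes hℓN)
  have h2 := (heckeW_realizes hℓNq).comp (resW_realizes N q)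
  have hd : CosetsDistinct (iotaG N)
      (fun ji : OnePoint (ZMod ℓ) × Unit => heckeRep ℓ ji.1 * (1 : GL (Fin 2) ℝ)) := by
    rintro ⟨x, _⟩ ⟨x', _⟩ n h
    have : x = x' := heckeRep_cosetsDistinct N x x' n (by simpa using h)
    rw [this]
  have h3 := WreathHom.op_eq_of_realizes h1 h2 (iotaG_injective N) hd
    (Equiv.prodComm Unit (OnePoint (ZMod ℓ))) (fun _ => 1)
    (fun ji => by simp) A
  rw [WreathHom.op_comp, WreathHom.op_comp, heckeW_op, heckeW_op, resW_op] at h3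
  exact (congrFun (congrArg DFunLike.coe h3) c).symm

end Res

section ResD

/-- Multiplication by `q` on `ℙ¹(𝔽_ℓ)`. -/
def mulQ (q ℓ : ℕ) (x : OnePoint (ZMod ℓ)) : OnePoint (ZMod ℓ) :=
  x.elim OnePoint.infty (fun k => (((q : ZMod ℓ) * k : ZMod ℓ) : OnePoint (ZMod ℓ)))

@[simp] theorem mulQ_infty : mulQ q ℓ OnePoint.infty = OnePoint.infty := rfl

@[simp] theorem mulQ_coe (k : ZMod ℓ) :
    mulQ q ℓ (k : OnePoint (ZMod ℓ)) = (((q : ZMod ℓ) * k : ZMod ℓ) : OnePoint (ZMod ℓ)) := rfl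

theorem mulQ_injective (hqℓ : ¬ ℓ ∣ q) : Function.Injective (mulQ q ℓ) := by
  have hq0 : (q : ZMod ℓ) ≠ 0 := by
    rwa [Ne, ZMod.natCast_eq_zero_iff]
  intro x x' h
  induction x using OnePoint.rec with
  | infty =>
    induction x' using OnePoint.rec with
    | infty => rfl
    | coe k' => simp at h
  | coe k =>
    induction x' using OnePoint.rec with
    | infty => simp at h
    | coe k' =>
      simp only [mulQ_coe, OnePoint.coe_eq_coe] at h
      rw [mul_left_cancel₀ hq0 h]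

variable [NeZero q]

/-- `δ α_x = τ α_{q x} δ` with `τ ∈ Γ₀(K)` a translation. -/
theorem exists_delta_heckeRep (K : ℕ) (x : OnePoint (ZMod ℓ)) :
    ∃ τ : Gamma0 K, heckeRep q OnePoint.infty * heckeRep ℓ x =
      iotaG K τ * (heckeRep ℓ (mulQ q ℓ x) * heckeRep q OnePoint.infty) := by
  have hℓ : ℓ ≠ 0 := (Fact.out : ℓ.Prime).ne_zero
  have hq : q ≠ 0 := NeZero.ne q
  induction x using OnePoint.rec with
  | infty =>
    refine ⟨1, ?_⟩
    rw [mulQ_infty, map_one, one_mul, heckeRep_eq_intGL hq, heckeRep_eq_intGL hℓ,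
      intGL_mul_eq_mul_iff]
    ext i j
    fin_cases i <;> fin_cases j <;>
      simp [Matrix.mul_apply, Fin.sum_univ_two, mul_comm]
  | coe k =>
    obtain ⟨s, hs⟩ : (ℓ : ℤ) ∣ (q : ℤ) * (k.val : ℤ) - ((((q : ZMod ℓ) * k : ZMod ℓ)).val : ℤ) := by
      rw [← ZMod.intCast_zmod_eq_zero_iff_dvd]
      push_cast
      rw [ZMod.natCast_zmod_val, ZMod.natCast_zmod_val, sub_self]
    refine ⟨translG K s, ?_⟩
    rw [mulQ_coe, heckeRep_eq_intGL hq, heckeRep_eq_intGL hℓ, heckeRep_eq_intGL hℓ,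
      iotaG_eq_intGL, intGL_mul, intGL_mul, intGL_mul]
    congr 1
    rw [coe_translG]
    ext i j
    fin_cases i <;> fin_cases j <;>
      simp [Matrix.mul_apply, Fin.sum_univ_two, -ZMod.natCast_val]
    linear_combination hs

/-- **DEG-2 (e)** for `res_δ`. -/
theorem resAllD_heckeHomAll (hℓN : ¬ ℓ ∣ N) (hℓNq : ¬ ℓ ∣ N * q) (A : Type*) [AddCommGroup A]
    (c : Additive (Gamma0 N) →+ A) :
    resAllD N q A (heckeHomAll hℓN A c) = heckeHomAll hℓNq A (resAllD N q A c) := by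
  have hℓq : ¬ ℓ ∣ q := fun h => hℓNq (Dvd.dvd.mul_left h N)
  have h1 := (resDW_realizes N q).comp (heckeW_realizes hℓN)
  have h2 := (heckeW_realizes hℓNq).comp (resDW_realizes N q)
  have hd : CosetsDistinct (iotaG N)
      (fun ji : OnePoint (ZMod ℓ) × Unit => heckeRep ℓ ji.1 * heckeRep q OnePoint.infty) := by
    rintro ⟨x, _⟩ ⟨x', _⟩ n h
    have h' : heckeRep ℓ x * heckeRep q OnePoint.infty =
        iotaG N n * (heckeRep ℓ x' * heckeRep q OnePoint.infty) := h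
    rw [← mul_assoc] at h'
    have : x = x' := heckeRep_cosetsDistinct N x x' n (mul_right_cancel h')
    rw [this]
  choose τ hτ using fun x : OnePoint (ZMod ℓ) => exists_delta_heckeRep (q := q) N x
  have hbij : Function.Bijective
      (fun ji : Unit × OnePoint (ZMod ℓ) => ((mulQ q ℓ ji.2, ()) : OnePoint (ZMod ℓ) × Unit)) := by
    rw [Fintype.bijective_iff_injective_and_card]
    refine ⟨?_, by rw [Fintype.card_prod, Fintype.card_prod, mul_comm]⟩
    rintro ⟨_, x⟩ ⟨_, x'⟩ h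
    simp only [Prod.mk.injEq, and_true] at h
    rw [mulQ_injective hℓq h]
  have h3 := WreathHom.op_eq_of_realizes h1 h2 (iotaG_injective N) hd
    (Equiv.ofBijective _ hbij) (fun ji => τ ji.2)
    (fun ji => hτ ji.2) A
  rw [WreathHom.op_comp, WreathHom.op_comp, heckeW_op, heckeW_op, resDW_op] at h3
  exact (congrFun (congrArg DFunLike.coe h3) c).symm

end ResD

section Cores

variable [NeZero q] [Fact q.Prime]

/-- **DEG-2 (e)** for `cores`, at the level of wreath homs. -/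
theorem coresW_op_comm (hqN : ¬ q ∣ N) (hℓN : ¬ ℓ ∣ N) (hℓNq : ¬ ℓ ∣ N * q) (A : Type*)
    [AddCommGroup A] :
    ((coresW Fact.out hqN).op A).comp (heckeHomAll hℓNq A) =
      (heckeHomAll hℓN A).comp ((coresW Fact.out hqN).op A) := by
  have hq : q.Prime := Fact.out
  have hℓ0 : ℓ ≠ 0 := (Fact.out : ℓ.Prime).ne_zero
  have hqℓ : q ≠ ℓ := by
    rintro rfl
    exact hℓNq (Dvd.intro_left _ rfl)
  rw [← heckeW_op, ← heckeW_op]
  refine WreathHom.op_comm_of_transfer (iotaG_injective N) (Subgroup.inclusion_injective _)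
    (coresW_realizes hq hqN) (distinct_incl hq hqN) (cover_incl hq hqN)
    (heckeW_realizes hℓN) (heckeRep_cosetsDistinct N)
    (H' := heckeW hℓNq) (α' := heckeRep ℓ) (heckeW_realizes hℓNq)
    (heckeRep_cosetsDistinct (N * q)) (fun x => ⟨x, 1, by simp⟩) ?_ rfl A
  intro x x'' g n h
  have h' : heckeRep ℓ x * iotaG N g = iotaG (N * q) n * heckeRep ℓ x'' := h
  rw [heckeRep_eq_intGL hℓ0, heckeRep_eq_intGL hℓ0, iotaG_eq_intGL, iotaG_eq_intGL,
    intGL_mul_eq_mul_iff] at h'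
  have hdvd := heckeInt_lowerLeft _ _ x x'' h' hq hqℓ (q_dvd_of_Gamma0_mul n)
  exact ⟨⟨(g : SL(2, ℤ)), mem_Gamma0_mul hq hqN (Gamma0_dvd g) hdvd⟩, Subtype.ext rfl⟩

/-- **DEG-2 (e)** for `cores`. -/
theorem coresAll_heckeHomAll (hqN : ¬ q ∣ N) (hℓN : ¬ ℓ ∣ N) (hℓNq : ¬ ℓ ∣ N * q) (A : Type*)
    [AddCommGroup A] (c : Additive (Gamma0 (N * q)) →+ A) :
    coresAll N q A (heckeHomAll hℓNq A c) = heckeHomAll hℓN A (coresAll N q A c) := by
  rw [coresAll_eq_op Fact.out hqN, coresAll_eq_op Fact.out hqN]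
  exact congrFun (congrArg DFunLike.coe (coresW_op_comm hqN hℓN hℓNq A)) c

end Cores

section CoresD

variable [NeZero q]

/-- Conjugation by `δ = diag(q, 1)` on `GL₂(ℝ)`. -/
def conjDelta (q : ℕ) : GL (Fin 2) ℝ →* GL (Fin 2) ℝ :=
  (MulAut.conj (heckeRep q OnePoint.infty)).toMonoidHom

omit [NeZero q] in
theorem conjDelta_apply (g : GL (Fin 2) ℝ) :
    conjDelta q g = heckeRep q OnePoint.infty * g * (heckeRep q OnePoint.infty)⁻¹ := rfl

theorem delta_mul_iotaG (γ : Gamma0 (N * q)) :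
    heckeRep q OnePoint.infty * iotaG (N * q) γ =
      iotaG N (inclD N q γ) * heckeRep q OnePoint.infty :=
  resDW_realizes N q γ ()

theorem conjDelta_comp_iotaG :
    (conjDelta q).comp (iotaG (N * q)) = (iotaG N).comp (inclD N q) := by
  refine MonoidHom.ext fun γ => ?_
  show heckeRep q OnePoint.infty * iotaG (N * q) γ * (heckeRep q OnePoint.infty)⁻¹ =
    iotaG N (inclD N q γ)
  rw [delta_mul_iotaG, mul_inv_cancel_right]

/-- The scalar matrix `q` in `GL₂(ℝ)`. -/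
def scalarQ (q : ℕ) [NeZero q] : GL (Fin 2) ℝ :=
  intGL !![(q : ℤ), 0; 0, (q : ℤ)] (by
    rw [Matrix.det_fin_two_of]
    simpa using NeZero.ne q)

theorem alpha_zero_mul_delta :
    heckeRep q ((0 : ZMod q) : OnePoint (ZMod q)) * heckeRep q OnePoint.infty = scalarQ q := by
  have hq : q ≠ 0 := NeZero.ne q
  rw [heckeRep_eq_intGL hq, heckeRep_eq_intGL hq, scalarQ, intGL_mul]
  congr 1
  ext i j
  fin_cases i <;> fin_cases j <;> simp [Matrix.mul_apply, Fin.sum_univ_two]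

theorem scalarQ_comm (g : GL (Fin 2) ℝ) : scalarQ q * g = g * scalarQ q := by
  apply Units.ext
  ext i j
  fin_cases i <;> fin_cases j <;>
    simp [scalarQ, Matrix.mul_apply, Fin.sum_univ_two, mul_comm]

variable [Fact q.Prime]

/-- The key divisibility for `cores_δ`. -/
theorem q_dvd_of_conjDelta (hℓq : q ≠ ℓ) (x x'' : OnePoint (ZMod ℓ)) (g : Gamma0 N)
    (n : Gamma0 (N * q))
    (h : conjDelta q (heckeRep ℓ x) * iotaG N g =
      iotaG N (inclD N q n) * conjDelta q (heckeRep ℓ x'')) :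
    (q : ℤ) ∣ (g : SL(2, ℤ)) 0 1 := by
  have hq : q.Prime := Fact.out
  have hq0 : q ≠ 0 := hq.ne_zero
  have hℓ0 : ℓ ≠ 0 := (Fact.out : ℓ.Prime).ne_zero
  set δ := heckeRep q OnePoint.infty with hδ
  set A₀ := heckeRep q ((0 : ZMod q) : OnePoint (ZMod q)) with hA₀
  have hZ : A₀ * δ = scalarQ q := alpha_zero_mul_delta
  have key : heckeRep ℓ x * A₀ * iotaG N g * δ =
      scalarQ q * (iotaG (N * q) n * heckeRep ℓ x'') := by
    have hA : A₀ = scalarQ q * δ⁻¹ := by rw [← hZ, mul_inv_cancel_right]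
    have h1 : δ * heckeRep ℓ x * δ⁻¹ * iotaG N g =
        iotaG N (inclD N q n) * (δ * heckeRep ℓ x'' * δ⁻¹) := h
    have h2 : iotaG N (inclD N q n) * δ = δ * iotaG (N * q) n := (delta_mul_iotaG n).symm
    calc heckeRep ℓ x * A₀ * iotaG N g * δ
        = heckeRep ℓ x * scalarQ q * δ⁻¹ * iotaG N g * δ := by rw [hA]; group
      _ = scalarQ q * (δ⁻¹ * (δ * heckeRep ℓ x * δ⁻¹ * iotaG N g) * δ) := by
          rw [← scalarQ_comm (heckeRep ℓ x)]; group
      _ = scalarQ q * (δ⁻¹ * (iotaG N (inclD N q n) * δ) * heckeRep ℓ x'') := by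
          rw [h1]; group
      _ = scalarQ q * (iotaG (N * q) n * heckeRep ℓ x'') := by
          rw [h2]; group
  rw [hδ, hA₀, heckeRep_eq_intGL hℓ0, heckeRep_eq_intGL hℓ0, heckeRep_eq_intGL hq0,
    heckeRep_eq_intGL hq0, iotaG_eq_intGL, iotaG_eq_intGL, scalarQ, intGL_mul, intGL_mul,
    intGL_mul, intGL_mul, intGL_mul] at key
  have key2 := intGL_injective _ _ key
  have e01 := congrFun (congrFun key2 0) 1
  simp only [Matrix.mul_apply, Fin.sum_univ_two] at e01
  have hqp : Prime (q : ℤ) := Nat.prime_iff_prime_int.mp hq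
  have hqℓ' : ¬ (q : ℤ) ∣ (ℓ : ℤ) := by
    intro h1
    have h2 : q ∣ ℓ := by exact_mod_cast h1
    exact hℓq ((Nat.prime_dvd_prime_iff_eq hq Fact.out).mp h2)
  induction x using OnePoint.rec with
  | infty =>
    simp at e01
    have h1 : (q : ℤ) ∣ (ℓ : ℤ) * (g : SL(2, ℤ)) 0 1 := ⟨_, e01⟩
    exact (hqp.dvd_or_dvd h1).resolve_left hqℓ'
  | coe k =>
    simp [-ZMod.natCast_val] at e01
    exact ⟨_, eq_sub_of_add_eq e01 |>.trans (by
      rw [mul_assoc, mul_comm (k.val : ℤ), mul_assoc, ← mul_sub])⟩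

/-- **DEG-2 (e)** for `cores_δ`, at the level of wreath homs. -/
theorem coresDW_op_comm (hqN : ¬ q ∣ N) (hℓN : ¬ ℓ ∣ N) (hℓNq : ¬ ℓ ∣ N * q) (A : Type*)
    [AddCommGroup A] :
    ((coresDW Fact.out hqN).op A).comp (heckeHomAll hℓNq A) =
      (heckeHomAll hℓN A).comp ((coresDW Fact.out hqN).op A) := by
  have hq : q.Prime := Fact.out
  have hqℓ : q ≠ ℓ := by
    rintro rfl
    exact hℓNq (Dvd.intro_left _ rfl)
  rw [← heckeW_op, ← heckeW_op]
  have hH' : (heckeW hℓNq).Realizes ((iotaG N).comp (inclD N q)) ((iotaG N).comp (inclD N q))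
      (fun x => conjDelta q (heckeRep ℓ x)) := by
    have := (heckeW_realizes hℓNq).map (conjDelta q)
    rwa [conjDelta_comp_iotaG] at this
  have hα' : CosetsDistinct ((iotaG N).comp (inclD N q))
      (fun x : OnePoint (ZMod ℓ) => conjDelta q (heckeRep ℓ x)) := by
    intro x x' n h
    have h1 : conjDelta q (heckeRep ℓ x) =
        ((iotaG N).comp (inclD N q)) n * conjDelta q (heckeRep ℓ x') := h
    rw [← conjDelta_comp_iotaG, MonoidHom.comp_apply, ← map_mul] at h1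
    have h2 := (MulAut.conj (heckeRep q OnePoint.infty)).injective h1
    exact heckeRep_cosetsDistinct (N * q) x x' n h2
  refine WreathHom.op_comm_of_transfer (iotaG_injective N) (inclD_injective N q)
    (coresDW_realizes hq hqN) (distinct_inclD hq hqN) (cover_inclD hq hqN)
    (heckeW_realizes hℓN) (heckeRep_cosetsDistinct N)
    (H' := heckeW hℓNq) hH' hα' ?_ ?_ rfl A
  · intro x
    obtain ⟨τ, hτ⟩ := exists_delta_heckeRep (q := q) N x
    refine ⟨mulQ q ℓ x, τ, ?_⟩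
    show heckeRep q OnePoint.infty * heckeRep ℓ x * (heckeRep q OnePoint.infty)⁻¹ = _
    rw [hτ, ← mul_assoc, mul_inv_cancel_right]
  · intro x x'' g n h
    exact exists_inclD_eq g (q_dvd_of_conjDelta hqℓ x x'' g n h) |>.imp fun m hm => hm.symm

/-- **DEG-2 (e)** for `cores_δ`. -/
theorem coresAllD_heckeHomAll (hqN : ¬ q ∣ N) (hℓN : ¬ ℓ ∣ N) (hℓNq : ¬ ℓ ∣ N * q) (A : Type*)
    [AddCommGroup A] (c : Additive (Gamma0 (N * q)) →+ A) :
    coresAllD N q A (heckeHomAll hℓNq A c) = heckeHomAll hℓN A (coresAllD N q A c) := by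
  rw [coresAllD_eq_op Fact.out hqN, coresAllD_eq_op Fact.out hqN]
  exact congrFun (congrArg DFunLike.coe (coresDW_op_comm hqN hℓN hℓNq A)) c

end CoresD

end Fermat.Agent.LDeg
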