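/-
Cluster L (S41, level raising), WP DEG: final wiring.  Owners: helper83 (DEG-2), helper88 (DEG-1).

`degStatement : L.DegStatement N q`.
-/
import Fermat.Agent.L.Interfaces
import Fermat.Agent.L.Degen.CoresIndex
import Fermat.Agent.L.Degen.HeckeComm

set_option autoImplicit false

noncomputable section

namespace Fermat.Agent.LDeg

open CongruenceSubgroup Matrix.SpecialLinearGroup ModularCurve.Period
open Fermat.Agent.F3EC Fermat.Agent.L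
open scoped MatrixGroups

variable (N q : ℕ) [NeZero q]

/-- **WP DEG.** The degeneracy maps on `Hom_par`: `β α = [[q + 1, T_q], [T_q, q + 1]]`, and
`α`, `β` commute with `T_ℓ`, `ℓ ∤ N q`. -/
theorem degStatement : L.DegStatement N q := by
  intro hq hqN
  have : Fact q.Prime := ⟨hq⟩
  have hNℓ : ∀ ℓ : Nat.Primes, ¬ (ℓ : ℕ) ∣ N * q → ¬ (ℓ : ℕ) ∣ N :=
    fun ℓ h h' => h (Dvd.dvd.mul_right h' q)
  refine ⟨coresPar N q, coresParD N q, isCoresPair N q, coresPar_resPar_eq hq hqN,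
    coresParD_resParD_eq hq hqN, ?_, ?_, ?_, ?_, ?_, ?_⟩
  · intro c
    apply Subtype.ext
    rw [coresPar_coe, heckeHom_coe ⟨q, hq⟩ hqN]
    exact coresAll_resAllD hqN ℤ c.1
  · intro c
    apply Subtype.ext
    rw [coresParD_coe, heckeHom_coe ⟨q, hq⟩ hqN]
    exact coresAllD_resAll hqN ℤ c.1
  · intro ℓ hℓ c
    have : Fact (ℓ : ℕ).Prime := ⟨ℓ.2⟩
    apply Subtype.ext
    rw [heckeHom_coe ℓ hℓ]
    show resAll N q ℤ ((heckeHom N ℓ c : HomPar N) : Additive (Gamma0 N) →+ ℤ) = _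
    rw [heckeHom_coe ℓ (hNℓ ℓ hℓ)]
    exact resAll_heckeHomAll (hNℓ ℓ hℓ) hℓ ℤ c.1
  · intro ℓ hℓ c
    have : Fact (ℓ : ℕ).Prime := ⟨ℓ.2⟩
    apply Subtype.ext
    rw [heckeHom_coe ℓ hℓ]
    show resAllD N q ℤ ((heckeHom N ℓ c : HomPar N) : Additive (Gamma0 N) →+ ℤ) = _
    rw [heckeHom_coe ℓ (hNℓ ℓ hℓ)]
    exact resAllD_heckeHomAll (hNℓ ℓ hℓ) hℓ ℤ c.1
  · intro ℓ hℓ c
    have : Fact (ℓ : ℕ).Prime := ⟨ℓ.2⟩
    apply Subtype.ext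
    rw [coresPar_coe, heckeHom_coe ℓ hℓ, heckeHom_coe ℓ (hNℓ ℓ hℓ), coresPar_coe]
    exact coresAll_heckeHomAll hqN (hNℓ ℓ hℓ) hℓ ℤ c.1
  · intro ℓ hℓ c
    have : Fact (ℓ : ℕ).Prime := ⟨ℓ.2⟩
    apply Subtype.ext
    rw [coresParD_coe, heckeHom_coe ℓ hℓ, heckeHom_coe ℓ (hNℓ ℓ hℓ), coresParD_coe]
    exact coresAllD_heckeHomAll hqN (hNℓ ℓ hℓ) hℓ ℤ c.1

end Fermat.Agent.LDeg
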